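import Mathlib

/-!
# The ring of integers of `ℚ(ζ₁₁)` is a principal ideal domain (helper489)

Main result: `Fermat.Agent.S11.helper489.eleven_pid`.
Route: Minkowski bound `< 60`; every prime `p < 60`, `p ≠ 11, 23` has `p ^ f ≥ 60` where
`f` is the order of `p` modulo `11`; the prime above `11` is `(ζ - 1)`; a prime above `23` is
the kernel of `ζ ↦ 4 : 𝓞 K → ZMod 23`, generated by `1 + ζ + ζ ^ 3`.
-/

set_option autoImplicit false

namespace Fermat.Agent.S11.helper489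

open NumberField Polynomial InfinitePlace Nat Real Ideal

variable (K : Type*) [Field K] [NumberField K]

theorem minkowski_bound_lt [IsCyclotomicExtension {11} ℚ K] :
    ⌊(4 / π) ^ nrComplexPlaces K * ((Module.finrank ℚ K)! / (Module.finrank ℚ K) ^ (Module.finrank ℚ K)
      * √|(discr K : ℝ)|)⌋₊ < 60 := by
  have : Fact (Nat.Prime 11) := ⟨by norm_num⟩
  rw [IsCyclotomicExtension.Rat.discr_prime 11 K, IsCyclotomicExtension.Rat.finrank 11 K,
    IsCyclotomicExtension.Rat.nrComplexPlaces_eq_totient_div_two 11, totient_prime (by norm_num)]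
  have h10 : (10 : ℕ)! = 3628800 := by decide
  norm_num [h10]
  rw [Nat.floor_lt (by positivity)]
  have hsqrt : √(2357947691 : ℝ) < 48559 := by
    rw [Real.sqrt_lt' (by norm_num)]
    norm_num
  have hpi : (4 : ℝ) / π < 200 / 157 := by
    rw [div_lt_div_iff₀ Real.pi_pos (by norm_num)]
    have := Real.pi_gt_d2
    linarith
  have h1 : ((4 : ℝ) / π) ^ 5 < (200 / 157) ^ 5 := by
    gcongr
  calc (4 / π) ^ 5 * (567 / 1562500 * √2357947691)
      < (200 / 157) ^ 5 * (567 / 1562500 * 48559) := by gcongr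
    _ < 60 := by norm_num


/-- For primes `p < 60`, `p ≠ 11, 23`, the norm `p ^ f` of a prime above `p` exceeds the bound. -/
theorem le_pow_of_pow_eq_one : ∀ p < 60, ∀ f < 6,
    (Nat.Prime p ∧ p ≠ 11 ∧ p ≠ 23 ∧ 0 < f ∧ ((p : ℕ) : ZMod 11) ^ f = 1) → 60 ≤ p ^ f := by
  decide

theorem le_pow_orderOf (p : ℕ) (hp60 : p < 60) (hp : p.Prime) (h11 : p ≠ 11) (h23 : p ≠ 23) :
    60 ≤ p ^ orderOf ((p : ℕ) : ZMod 11) := by
  have hpos : 0 < orderOf ((p : ℕ) : ZMod 11) := by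
    rw [orderOf_pos_iff]
    have hu : IsUnit ((p : ℕ) : ZMod 11) := by
      rw [ZMod.isUnit_iff_coprime]
      exact (Nat.coprime_primes hp (by norm_num)).mpr h11
    exact hu.isOfFinOrder
  by_cases hf : orderOf ((p : ℕ) : ZMod 11) < 6
  · exact le_pow_of_pow_eq_one p hp60 _ hf ⟨hp, h11, h23, hpos, pow_orderOf_eq_one _⟩
  · rw [not_lt] at hf
    calc 60 ≤ 2 ^ 6 := by norm_num
      _ ≤ p ^ 6 := Nat.pow_le_pow_left hp.two_le 6
      _ ≤ p ^ orderOf ((p : ℕ) : ZMod 11) := Nat.pow_le_pow_right hp.pos hf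


section TwentyThree

variable [IsCyclotomicExtension {11} ℚ K]

/-- The chosen primitive 11-th root of unity in `𝓞 K`. -/
noncomputable abbrev zeta11 : 𝓞 K := (IsCyclotomicExtension.zeta_spec 11 ℚ K).toInteger

theorem zeta11_isPrimitiveRoot : IsPrimitiveRoot (zeta11 K) 11 :=
  (IsCyclotomicExtension.zeta_spec 11 ℚ K).toInteger_isPrimitiveRoot

theorem zeta11_pow : (zeta11 K) ^ 11 = 1 := (zeta11_isPrimitiveRoot K).pow_eq_one

theorem zeta11_sum : 1 + zeta11 K + zeta11 K ^ 2 + zeta11 K ^ 3 + zeta11 K ^ 4 + zeta11 K ^ 5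
    + zeta11 K ^ 6 + zeta11 K ^ 7 + zeta11 K ^ 8 + zeta11 K ^ 9 + zeta11 K ^ 10 = 0 := by
  have h := (zeta11_isPrimitiveRoot K).geom_sum_eq_zero (by norm_num)
  simp only [Finset.sum_range_succ, Finset.sum_range_zero] at h
  linear_combination h

theorem aeval_four_minpoly :
    aeval (4 : ZMod 23) (minpoly ℤ (IsCyclotomicExtension.zeta_spec 11 ℚ K).integralPowerBasis.gen) = 0 := by
  have : Fact (Nat.Prime 11) := ⟨by norm_num⟩
  have h : cyclotomic 11 ℤ = minpoly ℤ (zeta11 K) := by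
    rw [Polynomial.cyclotomic_eq_minpoly (IsCyclotomicExtension.zeta_spec 11 ℚ K) (by norm_num),
      ← (IsCyclotomicExtension.zeta_spec 11 ℚ K).coe_toInteger, ← RingOfIntegers.minpoly_coe]
    rfl
  rw [IsPrimitiveRoot.integralPowerBasis_gen]
  change aeval (4 : ZMod 23) (minpoly ℤ (zeta11 K)) = 0
  rw [← h, Polynomial.cyclotomic_prime]
  simp only [Finset.sum_range_succ, Finset.sum_range_zero, map_add, map_pow, aeval_X, map_zero]
  decide

/-- The ring homomorphism `𝓞 K → ZMod 23` sending `ζ` to `4`. -/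
noncomputable def toZMod23 : 𝓞 K →ₐ[ℤ] ZMod 23 :=
  (IsCyclotomicExtension.zeta_spec 11 ℚ K).integralPowerBasis.lift (4 : ZMod 23) (aeval_four_minpoly K)

theorem toZMod23_zeta : toZMod23 K (zeta11 K) = 4 := by
  have := (IsCyclotomicExtension.zeta_spec 11 ℚ K).integralPowerBasis.lift_gen (4 : ZMod 23)
    (aeval_four_minpoly K)
  rw [IsPrimitiveRoot.integralPowerBasis_gen] at this
  exact this

/-- A generator of a prime above `23`. -/
noncomputable abbrev alpha23 : 𝓞 K := 1 + zeta11 K + zeta11 K ^ 3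

theorem alpha23_dvd_23 : alpha23 K ∣ (23 : 𝓞 K) := by
  refine ⟨-(2 + 14 * zeta11 K + 17 * zeta11 K ^ 2 + 12 * zeta11 K ^ 3 + 5 * zeta11 K ^ 4
    + 9 * zeta11 K ^ 5 + 10 * zeta11 K ^ 6 + 16 * zeta11 K ^ 7 + 6 * zeta11 K ^ 8
    + 15 * zeta11 K ^ 9), ?_⟩
  linear_combination (31 : 𝓞 K) * zeta11_sum K + (6 + 15 * zeta11 K) * zeta11_pow K

theorem alpha23_dvd_zeta_sub : alpha23 K ∣ zeta11 K - 4 := by
  refine ⟨1 + 3 * zeta11 K + 3 * zeta11 K ^ 2 + 2 * zeta11 K ^ 3 + zeta11 K ^ 4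
    + 2 * zeta11 K ^ 5 + 2 * zeta11 K ^ 6 + 3 * zeta11 K ^ 7 + zeta11 K ^ 8
    + 3 * zeta11 K ^ 9, ?_⟩
  linear_combination (-6 : 𝓞 K) * zeta11_sum K - (1 + 3 * zeta11 K) * zeta11_pow K

theorem ker_toZMod23_isPrime : (RingHom.ker (toZMod23 K)).IsPrime := by
  have : Fact (Nat.Prime 23) := ⟨by norm_num⟩
  exact RingHom.ker_isPrime _

theorem ker_toZMod23_liesOver : (RingHom.ker (toZMod23 K)).LiesOver (span {((23 : ℕ) : ℤ)}) := by
  constructor
  ext x
  rw [Ideal.under, Ideal.mem_comap, RingHom.mem_ker, Ideal.mem_span_singleton, eq_intCast,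
    map_intCast, ZMod.intCast_zmod_eq_zero_iff_dvd]

theorem ker_toZMod23_eq : RingHom.ker (toZMod23 K) = span {alpha23 K} := by
  apply le_antisymm
  · intro x hx
    rw [RingHom.mem_ker] at hx
    rw [Ideal.mem_span_singleton]
    have hx' : x ∈ Algebra.adjoin ℤ {zeta11 K} := by
      have := IsCyclotomicExtension.Rat.adjoin_singleton_eq_top
        (IsCyclotomicExtension.zeta_spec 11 ℚ K)
      change Algebra.adjoin ℤ {zeta11 K} = ⊤ at this
      rw [this]
      exact Algebra.mem_top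
    rw [Algebra.adjoin_singleton_eq_range_aeval] at hx'
    obtain ⟨f, hf⟩ := hx'
    have hf' : aeval (zeta11 K) f = x := hf
    subst hf'
    -- `f(ζ) - f(4)` is divisible by `ζ - 4`
    have h1 : zeta11 K - 4 ∣ aeval (zeta11 K) f - aeval (4 : 𝓞 K) f := by
      rw [aeval_def, aeval_def, Polynomial.eval₂_eq_eval_map, Polynomial.eval₂_eq_eval_map]
      exact Polynomial.sub_dvd_eval_sub _ _ _
    have h2 : aeval (4 : 𝓞 K) f = ((f.eval 4 : ℤ) : 𝓞 K) := by
      have : (4 : 𝓞 K) = algebraMap ℤ (𝓞 K) 4 := by simp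
      rw [this, Polynomial.aeval_algebraMap_apply, eq_intCast, Polynomial.aeval_def,
        Polynomial.eval₂_eq_eval_map]
      simp
    have h3 : ((f.eval 4 : ℤ) : ZMod 23) = 0 := by
      have : toZMod23 K (aeval (zeta11 K) f) = aeval (toZMod23 K (zeta11 K)) f :=
        (Polynomial.aeval_algHom_apply (toZMod23 K) (zeta11 K) f).symm
      rw [hx, toZMod23_zeta] at this
      have h4 : aeval (4 : ZMod 23) f = ((f.eval 4 : ℤ) : ZMod 23) := by
        have : (4 : ZMod 23) = algebraMap ℤ (ZMod 23) 4 := by simp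
        rw [this, Polynomial.aeval_algebraMap_apply, eq_intCast, Polynomial.aeval_def,
          Polynomial.eval₂_eq_eval_map]
        simp
      rw [← h4, ← this]
    rw [ZMod.intCast_zmod_eq_zero_iff_dvd] at h3
    obtain ⟨c, hc⟩ := h3
    have h5 : alpha23 K ∣ ((f.eval 4 : ℤ) : 𝓞 K) := by
      rw [hc]
      push_cast
      exact Dvd.dvd.mul_right (alpha23_dvd_23 K) _
    have h6 : alpha23 K ∣ aeval (zeta11 K) f - aeval (4 : 𝓞 K) f :=
      (alpha23_dvd_zeta_sub K).trans h1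
    rw [h2] at h6
    have := dvd_add h6 h5
    rwa [sub_add_cancel] at this
  · rw [Ideal.span_singleton_le_iff_mem, RingHom.mem_ker]
    simp only [map_add, map_pow, map_one, toZMod23_zeta]
    decide

theorem exists_principal_prime_over_23 :
    ∃ P ∈ primesOver (span {((23 : ℕ) : ℤ)}) (𝓞 K), Submodule.IsPrincipal P :=
  ⟨RingHom.ker (toZMod23 K), ⟨ker_toZMod23_isPrime K, ker_toZMod23_liesOver K⟩,
    ⟨alpha23 K, ker_toZMod23_eq K⟩⟩

end TwentyThree

/-- The ring of integers of the `11`-th cyclotomic field is a principal ideal domain. -/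
theorem eleven_pid [IsCyclotomicExtension {11} ℚ K] : IsPrincipalIdealRing (𝓞 K) := by
  have : Fact (Nat.Prime 11) := ⟨by norm_num⟩
  have : IsGalois ℚ K := IsCyclotomicExtension.isGalois {11} ℚ K
  apply RingOfIntegers.isPrincipalIdealRing_of_isPrincipal_of_lt_or_isPrincipal_of_mem_primesOver_of_mem_Icc
  intro p hp hprime
  have hM := minkowski_bound_lt K
  rw [Finset.mem_Icc] at hp
  have hp60 : p < 60 := lt_of_le_of_lt hp.2 hM
  by_cases h11 : p = 11
  · subst h11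
    obtain ⟨⟨P, hP1, hP2⟩⟩ := (span {((11 : ℕ) : ℤ)}).nonempty_primesOver (S := 𝓞 K)
    exact ⟨P, ⟨hP1, hP2⟩, Or.inr ⟨_, IsCyclotomicExtension.Rat.eq_span_zeta_sub_one_of_liesOver' 11 K
      (IsCyclotomicExtension.zeta_spec 11 ℚ K) P⟩⟩
  by_cases h23 : p = 23
  · subst h23
    obtain ⟨P, hP, hP'⟩ := exists_principal_prime_over_23 K
    exact ⟨P, hP, Or.inr hP'⟩
  · have : Fact p.Prime := ⟨hprime⟩
    obtain ⟨⟨P, hP1, hP2⟩⟩ := (span {(p : ℤ)}).nonempty_primesOver (S := 𝓞 K)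
    refine ⟨P, ⟨hP1, hP2⟩, Or.inl ?_⟩
    rw [IsCyclotomicExtension.Rat.inertiaDeg_eq_of_not_dvd p K P
      (fun h => h11 ((Nat.prime_dvd_prime_iff_eq hprime (by norm_num)).mp h))]
    exact lt_of_lt_of_le hM (le_pow_orderOf p hp60 hprime h11 h23)


end Fermat.Agent.S11.helper489
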