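import Mathlib

set_option autoImplicit false

namespace Fermat.Agent.S11.helper1331

open NumberField Polynomial Ideal

variable (K : Type*) [Field K] [NumberField K] [IsCyclotomicExtension {11} ℚ K]

/-- The Minkowski bound of `ℚ(ζ₁₁)` is less than `60`. -/
theorem minkowski_floor_le :
    ⌊(4 / Real.pi) ^ InfinitePlace.nrComplexPlaces K *
      (((Module.finrank ℚ K).factorial : ℝ) / ((Module.finrank ℚ K : ℕ) : ℝ) ^ Module.finrank ℚ K *
        √|((NumberField.discr K : ℤ) : ℝ)|)⌋₊ ≤ 59 := by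
  have : Fact (Nat.Prime 11) := ⟨by norm_num⟩
  rw [IsCyclotomicExtension.Rat.discr_prime 11 K,
    IsCyclotomicExtension.finrank (n := 11) K (Polynomial.cyclotomic.irreducible_rat (by norm_num)),
    IsCyclotomicExtension.Rat.nrComplexPlaces_eq_totient_div_two 11,
    Nat.totient_prime (by norm_num)]
  have h1 : (4 / Real.pi) ≤ 4 / 3.14 := by
    have := Real.pi_gt_d2
    gcongr
  have h2 : √|(((-1) ^ ((11 - 1) / 2) * ((11 : ℕ) : ℤ) ^ (11 - 2) : ℤ) : ℝ)| ≤ 48559 := by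
    rw [Real.sqrt_le_left (by norm_num)]
    norm_num
  have h0 : (0 : ℝ) ≤ 4 / Real.pi := by positivity
  apply Nat.lt_succ_iff.mp
  rw [Nat.floor_lt (by positivity)]
  have h3 : (4 / Real.pi) ^ ((11 - 1) / 2) *
      ((((11 - 1).factorial : ℕ) : ℝ) / (((11 - 1 : ℕ)) : ℝ) ^ (11 - 1) *
        √|(((-1) ^ ((11 - 1) / 2) * ((11 : ℕ) : ℤ) ^ (11 - 2) : ℤ) : ℝ)|)
      ≤ (4 / 3.14) ^ ((11 - 1) / 2) *
      ((((11 - 1).factorial : ℕ) : ℝ) / (((11 - 1 : ℕ)) : ℝ) ^ (11 - 1) * 48559) := by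
    gcongr
  refine lt_of_le_of_lt h3 ?_
  norm_num [Nat.factorial]

/-- The sum of the first eleven powers of a primitive 11th root of unity vanishes. -/
theorem zeta_cyclo_eq_zero {R : Type*} [CommRing R] [IsDomain R] {ζ : R}
    (hζ : IsPrimitiveRoot ζ 11) :
    1 + ζ + ζ ^ 2 + ζ ^ 3 + ζ ^ 4 + ζ ^ 5 + ζ ^ 6 + ζ ^ 7 + ζ ^ 8 + ζ ^ 9 + ζ ^ 10 = 0 := by
  have h := hζ.geom_sum_eq_zero (by norm_num)
  simpa [Finset.sum_range_succ] using h

theorem geom_sum_two_zmod23 : (∑ i ∈ Finset.range 11, (2 : ZMod 23) ^ i) = 0 := by decide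

/-- There is a principal prime ideal of `𝓞 ℚ(ζ₁₁)` above `23`. -/
theorem exists_isPrincipal_primesOver_23 :
    ∃ P ∈ primesOver (span {((23 : ℕ) : ℤ)}) (𝓞 K), Submodule.IsPrincipal P := by
  have : Fact (Nat.Prime 23) := ⟨by norm_num⟩
  have : Fact (Nat.Prime 11) := ⟨by norm_num⟩
  have hζ := IsCyclotomicExtension.zeta_spec 11 ℚ K
  set ζ : 𝓞 K := hζ.toInteger with hζdef
  have h₁ : ¬ 23 ∣ RingOfIntegers.exponent ζ := by
    rw [RingOfIntegers.exponent_eq_one_iff.mpr <|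
      IsCyclotomicExtension.Rat.adjoin_singleton_eq_top hζ]
    norm_num
  have hmin : minpoly ℤ ζ = cyclotomic 11 ℤ := by
    rw [cyclotomic_eq_minpoly hζ (by norm_num), ← RingOfIntegers.minpoly_coe]
    rfl
  have hQ : (X - C 2 : ℤ[X]).map (Int.castRingHom (ZMod 23)) ∈
      RingOfIntegers.monicFactorsMod ζ 23 := by
    rw [Multiset.mem_toFinset, Polynomial.mem_normalizedFactors_iff
      (map_monic_ne_zero (minpoly.monic ζ.isIntegral))]
    have hmap : (X - C 2 : ℤ[X]).map (Int.castRingHom (ZMod 23)) = X - C (2 : ZMod 23) := by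
      rw [Polynomial.map_sub, Polynomial.map_X, Polynomial.map_C]
      simp
    rw [hmap]
    refine ⟨irreducible_X_sub_C _, monic_X_sub_C _, ?_⟩
    rw [hmin, map_cyclotomic, dvd_iff_isRoot, cyclotomic_prime]
    simp only [IsRoot.def, eval_finsetSum, eval_pow, eval_X]
    exact geom_sum_two_zmod23
  have hlies := NumberField.Ideal.liesOver_primesOverSpanEquivMonicFactorsMod_symm h₁ hQ
  have hprime : (span {((23 : ℕ) : 𝓞 K), aeval ζ (X - C 2 : ℤ[X])}).IsPrime := by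
    rw [← NumberField.Ideal.primesOverSpanEquivMonicFactorsMod_symm_apply_eq_span h₁ hQ]
    exact ((NumberField.Ideal.primesOverSpanEquivMonicFactorsMod h₁).symm ⟨_, hQ⟩).prop.1
  refine ⟨_, ⟨hprime, hlies⟩, ?_⟩
  have hcyc := zeta_cyclo_eq_zero hζ.toInteger_isPrimitiveRoot
  rw [← hζdef] at hcyc
  have haeval : aeval ζ (X - C 2 : ℤ[X]) = ζ - 2 := by
    rw [map_sub, aeval_X, aeval_C]
    simp
  rw [haeval]
  refine ⟨1 - ζ ^ 3 - ζ ^ 4, ?_⟩
  apply le_antisymm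
  · rw [Ideal.submodule_span_eq, Ideal.span_le]
    intro x hx
    rcases hx with rfl | rfl
    · refine Ideal.mem_span_singleton.mpr ⟨-1 - 13 * ζ + 4 * ζ ^ 2 + ζ ^ 3 - 12 * ζ ^ 4 - 7 * ζ ^ 5
        + 7 * ζ ^ 6 - 9 * ζ ^ 7 - 17 * ζ ^ 8 + 2 * ζ ^ 9, ?_⟩
      push_cast
      linear_combination (-(-24 + 11 * ζ + 17 * ζ ^ 2 - 2 * ζ ^ 3)) * hcyc
    · refine Ideal.mem_span_singleton.mpr ⟨ζ - ζ ^ 2 + ζ ^ 4 - ζ ^ 6 + ζ ^ 7 + ζ ^ 8 - ζ ^ 9, ?_⟩
      linear_combination (-(2 - 2 * ζ - ζ ^ 2 + ζ ^ 3)) * hcyc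
  · rw [Ideal.submodule_span_eq, Ideal.span_le]
    intro x hx
    rw [Set.mem_singleton_iff] at hx
    subst hx
    refine Ideal.mem_span_pair.mpr ⟨-1, -12 - 6 * ζ - 3 * ζ ^ 2 - ζ ^ 3, ?_⟩
    push_cast
    ring

theorem pow_ten_zmod11 :
    ∀ p ∈ Finset.Icc 1 59, p % 11 ≠ 0 → ((p : ℕ) : ZMod 11) ^ 10 = 1 := by decide

theorem pow_le_five_zmod11 :
    ∀ p ∈ Finset.Icc 1 59, p % 11 ≠ 0 → p % 11 ≠ 1 →
      ∀ f ∈ Finset.Icc 1 5, ((p : ℕ) : ZMod 11) ^ f = 1 → 60 ≤ p ^ f := by decide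

/-- For a prime `p ≤ 59` different from `11` and `23`, the norm of a prime above `p` in
`ℚ(ζ₁₁)` is at least `60`. -/
theorem sixty_le_pow_orderOf (p : ℕ) (hp59 : p ≤ 59) (hpp : p.Prime) (h11 : p ≠ 11)
    (h23 : p ≠ 23) : 60 ≤ p ^ orderOf ((p : ℕ) : ZMod 11) := by
  have hp1 : 1 ≤ p := hpp.one_le
  have hmem : p ∈ Finset.Icc 1 59 := Finset.mem_Icc.mpr ⟨hp1, hp59⟩
  have h0 : p % 11 ≠ 0 := by
    intro h
    have hdvd : 11 ∣ p := Nat.dvd_of_mod_eq_zero h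
    rcases (Nat.prime_dvd_prime_iff_eq (by norm_num) hpp).mp hdvd with h'
    exact h11 h'.symm
  have h1 : p % 11 ≠ 1 := by
    intro h
    have hcases : p = 1 ∨ p = 12 ∨ p = 23 ∨ p = 34 ∨ p = 45 ∨ p = 56 := by omega
    rcases hcases with rfl | rfl | rfl | rfl | rfl | rfl
    · exact absurd hpp (by norm_num)
    · exact absurd hpp (by norm_num)
    · exact h23 rfl
    · exact absurd hpp (by norm_num)
    · exact absurd hpp (by norm_num)
    · exact absurd hpp (by norm_num)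
  have hdvd : orderOf ((p : ℕ) : ZMod 11) ∣ 10 :=
    orderOf_dvd_of_pow_eq_one (pow_ten_zmod11 p hmem h0)
  have hpos : 0 < orderOf ((p : ℕ) : ZMod 11) := Nat.pos_of_dvd_of_pos hdvd (by norm_num)
  rcases le_or_gt (orderOf ((p : ℕ) : ZMod 11)) 5 with h5 | h5
  · exact pow_le_five_zmod11 p hmem h0 h1 _ (Finset.mem_Icc.mpr ⟨hpos, h5⟩) (pow_orderOf_eq_one _)
  · calc 60 ≤ 2 ^ 6 := by norm_num
      _ ≤ p ^ 6 := Nat.pow_le_pow_left hpp.two_le 6
      _ ≤ p ^ orderOf ((p : ℕ) : ZMod 11) := Nat.pow_le_pow_right hpp.pos h5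

/-- The ring of integers of the eleventh cyclotomic field is a principal ideal domain. -/
theorem eleven_pid : IsPrincipalIdealRing (𝓞 K) := by
  have : Fact (Nat.Prime 11) := ⟨by norm_num⟩
  have : IsGalois ℚ K := IsCyclotomicExtension.isGalois {11} ℚ K
  apply RingOfIntegers.isPrincipalIdealRing_of_isPrincipal_of_lt_or_isPrincipal_of_mem_primesOver_of_mem_Icc
  intro p hp hpp
  have hM := minkowski_floor_le K
  have hp59 : p ≤ 59 := (Finset.mem_Icc.mp hp).2.trans hM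
  by_cases h11 : p = 11
  · subst h11
    have hζ := IsCyclotomicExtension.zeta_spec 11 ℚ K
    obtain ⟨⟨P, hP1, hP2⟩⟩ := (span {((11 : ℕ) : ℤ)}).nonempty_primesOver (S := 𝓞 K)
    refine ⟨P, ⟨hP1, hP2⟩, Or.inr ?_⟩
    rw [IsCyclotomicExtension.Rat.eq_span_zeta_sub_one_of_liesOver' 11 K hζ P]
    exact ⟨_, rfl⟩
  by_cases h23 : p = 23
  · subst h23
    obtain ⟨P, hP, hprinc⟩ := exists_isPrincipal_primesOver_23 K
    exact ⟨P, hP, Or.inr hprinc⟩
  · have : Fact p.Prime := ⟨hpp⟩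
    obtain ⟨⟨P, hP1, hP2⟩⟩ := (span {(p : ℤ)}).nonempty_primesOver (S := 𝓞 K)
    refine ⟨P, ⟨hP1, hP2⟩, Or.inl ?_⟩
    have hnd : ¬ p ∣ 11 := by
      intro h
      exact h11 ((Nat.prime_dvd_prime_iff_eq hpp (by norm_num)).mp h)
    rw [IsCyclotomicExtension.Rat.inertiaDeg_eq_of_not_dvd p K P (m := 11) hnd]
    exact lt_of_le_of_lt hM (sixty_le_pow_orderOf p hp59 hpp h11 h23)

end Fermat.Agent.S11.helper1331
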