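import Mathlib

/-!
# Case II of Fermat's Last Theorem for an odd prime `p` (Kummer descent, PID version)

Abstract descent in a principal ideal domain `O` containing a primitive `p`-th root of unity `ζ`
such that `ζ - 1` is prime with residue ring of cardinality `p`, `(ζ - 1) ^ (p - 1)` is associated
to `p`, and Kummer's lemma holds (a unit congruent to a rational integer modulo `p` is a `p`-th
power).  Then the specialisation to the ring of integers of the `p`-th cyclotomic field.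
-/

set_option autoImplicit false
set_option linter.unusedSectionVars false

namespace Fermat.Agent.S11.helper1391

open Polynomial Finset

section Abstract

variable {O : Type*} [CommRing O] [IsDomain O]

/-- Two distinct `p`-th roots of unity differ by an associate of `ζ - 1`. -/
lemma root_sub_root_assoc {p : ℕ} (hp : p.Prime) {ζ : O} (hζ : IsPrimitiveRoot ζ p) {η₁ η₂ : O}
    (h₁ : η₁ ^ p = 1) (h₂ : η₂ ^ p = 1) (hne : η₁ ≠ η₂) : Associated (ζ - 1) (η₁ - η₂) := by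
  have key := hζ.nthRootsFinset_pairwise_associated_sub_one_sub_of_prime hp
  exact key (by simpa [mem_nthRootsFinset hp.pos] using h₁)
    (by simpa [mem_nthRootsFinset hp.pos] using h₂) hne

/-- `ζ - 1` divides the difference of any two `p`-th roots of unity. -/
lemma root_sub_root_dvd {p : ℕ} (hp : p.Prime) {ζ : O} (hζ : IsPrimitiveRoot ζ p) {η₁ η₂ : O}
    (h₁ : η₁ ^ p = 1) (h₂ : η₂ ^ p = 1) : ζ - 1 ∣ η₁ - η₂ := by
  by_cases hne : η₁ = η₂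
  · simp [hne]
  · exact (root_sub_root_assoc hp hζ h₁ h₂ hne).dvd

/-- `ζ - 1` divides `p`. -/
lemma sub_one_dvd_p {p : ℕ} (hp : p.Prime) {ζ : O}
    (hlp : Associated ((ζ - 1) ^ (p - 1)) (p : O)) : ζ - 1 ∣ (p : O) :=
  (dvd_pow_self _ (Nat.sub_pos_of_lt hp.one_lt).ne').trans hlp.dvd

/-- `p` divides `(ζ - 1) ^ p`. -/
lemma p_dvd_sub_one_pow {p : ℕ} {ζ : O}
    (hlp : Associated ((ζ - 1) ^ (p - 1)) (p : O)) : (p : O) ∣ (ζ - 1) ^ p :=
  hlp.symm.dvd.trans (pow_dvd_pow _ (Nat.sub_le p 1))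

/-- An integer divisible by `ζ - 1` in `O` is divisible by `p`. -/
lemma int_dvd_of_sub_one_dvd {p : ℕ} (hp : p.Prime) {ζ : O} (hl : Prime (ζ - 1))
    (hlp : Associated ((ζ - 1) ^ (p - 1)) (p : O)) {n : ℤ} (h : ζ - 1 ∣ (n : O)) :
    (p : ℤ) ∣ n := by
  by_contra hn
  have hcop : IsCoprime (p : ℤ) n :=
    (Prime.coprime_iff_not_dvd (Nat.prime_iff_prime_int.1 hp)).2 hn
  obtain ⟨a, b, hab⟩ := hcop
  have h1 : ζ - 1 ∣ ((a * p + b * n : ℤ) : O) := by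
    push_cast
    exact dvd_add (Dvd.dvd.mul_left (sub_one_dvd_p hp hlp) _) (Dvd.dvd.mul_left h _)
  rw [hab] at h1
  exact hl.not_isUnit (isUnit_of_dvd_one (by simpa using h1))

/-- Every element of `O` is congruent to a rational integer modulo `ζ - 1`. -/
lemma exists_int_sub_dvd {p : ℕ} (hp : p.Prime) {ζ : O}
    (hcard : Nat.card (O ⧸ Ideal.span {ζ - 1}) = p) (α : O) : ∃ n : ℤ, ζ - 1 ∣ α - n := by
  have : Fact (Nat.Prime (Nat.card (O ⧸ Ideal.span {ζ - 1}))) := ⟨hcard ▸ hp⟩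
  have : Finite (O ⧸ Ideal.span {ζ - 1}) :=
    Nat.finite_of_card_ne_zero (by rw [hcard]; exact hp.ne_zero)
  have : Nontrivial (O ⧸ Ideal.span {ζ - 1}) :=
    Finite.one_lt_card_iff_nontrivial.1 (by rw [hcard]; exact hp.one_lt)
  have htop : AddSubgroup.zmultiples (1 : O ⧸ Ideal.span {ζ - 1}) = ⊤ := by
    rcases (AddSubgroup.zmultiples (1 : O ⧸ Ideal.span {ζ - 1})).eq_bot_or_eq_top_of_prime_card
      with h | h
    · exact absurd (AddSubgroup.zmultiples_eq_bot.1 h) one_ne_zero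
    · exact h
  have hmem : Ideal.Quotient.mk (Ideal.span {ζ - 1}) α ∈
      AddSubgroup.zmultiples (1 : O ⧸ Ideal.span {ζ - 1}) := by rw [htop]; trivial
  obtain ⟨n, hn⟩ := AddSubgroup.mem_zmultiples_iff.1 hmem
  refine ⟨n, ?_⟩
  rw [← Ideal.mem_span_singleton, ← Ideal.Quotient.eq, ← hn]
  simp

/-- `p`-th powers are congruent to rational integers modulo `p`. -/
lemma exists_int_pow_sub_dvd {p : ℕ} (hp : p.Prime) {ζ : O} (hζ : IsPrimitiveRoot ζ p)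
    (hcard : Nat.card (O ⧸ Ideal.span {ζ - 1}) = p)
    (hlp : Associated ((ζ - 1) ^ (p - 1)) (p : O)) (α : O) : ∃ n : ℤ, (p : O) ∣ α ^ p - n := by
  obtain ⟨n, hn⟩ := exists_int_sub_dvd hp hcard α
  refine ⟨n ^ p, (p_dvd_sub_one_pow hlp).trans ?_⟩
  push_cast
  rw [hζ.pow_sub_pow_eq_prod_sub_mul α (n : O) hp.pos]
  have hc : (ζ - 1) ^ p = ∏ _η ∈ nthRootsFinset p (1 : O), (ζ - 1) := by
    rw [prod_const, hζ.card_nthRootsFinset]
  rw [hc]
  refine prod_dvd_prod_of_dvd _ _ (fun η hη => ?_)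
  have hη' : η ^ p = 1 := (mem_nthRootsFinset hp.pos 1).1 hη
  have h1 : α - η * n = (α - n) + (1 - η) * n := by ring
  rw [h1]
  exact dvd_add hn (Dvd.dvd.mul_right (root_sub_root_dvd hp hζ (one_pow p) hη') _)

/-- A solution of the generalised Fermat equation `x ^ p + y ^ p = ε * ((ζ - 1) ^ m * z) ^ p`
with `x`, `y`, `z` prime to `ζ - 1` and `x`, `y` coprime. -/
def Sol (p : ℕ) (ζ : O) (m : ℕ) : Prop :=
  ∃ x y z : O, ∃ ε : Oˣ, ¬ ζ - 1 ∣ x ∧ ¬ ζ - 1 ∣ y ∧ ¬ ζ - 1 ∣ z ∧ IsCoprime x y ∧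
    x ^ p + y ^ p = ε * ((ζ - 1) ^ m * z) ^ p

/-- Analysis of the factors `x + η * y`: each is `(ζ - 1) * W η`, exactly one `W η₀` is divisible
by `ζ - 1`, the `W η` are pairwise coprime and their product is `ε * ((ζ - 1) ^ (m - 1) * z) ^ p`. -/
lemma factor_data [IsPrincipalIdealRing O] {p : ℕ} (hp : p.Prime) (hodd : p ≠ 2) {ζ : O}
    (hζ : IsPrimitiveRoot ζ p) (hl : Prime (ζ - 1))
    (hcard : Nat.card (O ⧸ Ideal.span {ζ - 1}) = p)
    {m : ℕ} (hm : 1 ≤ m) {x y z : O} {ε : Oˣ} (hy : ¬ ζ - 1 ∣ y)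
    (hxy : IsCoprime x y) (heq : x ^ p + y ^ p = ε * ((ζ - 1) ^ m * z) ^ p) :
    ∃ (η₀ : O) (W : O → O), η₀ ^ p = 1 ∧ (∀ η, η ^ p = 1 → x + η * y = (ζ - 1) * W η) ∧
      ζ - 1 ∣ W η₀ ∧ (∀ η, η ^ p = 1 → η ≠ η₀ → ¬ ζ - 1 ∣ W η) ∧
      (∀ η η', η ^ p = 1 → η' ^ p = 1 → η ≠ η' → IsCoprime (W η) (W η')) ∧
      ∏ η ∈ nthRootsFinset p (1 : O), W η = ε * ((ζ - 1) ^ (m - 1) * z) ^ p := by
  have hl0 : ζ - 1 ≠ 0 := hl.ne_zero
  have hmem : ∀ η : O, η ∈ nthRootsFinset p (1 : O) ↔ η ^ p = 1 :=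
    fun η => mem_nthRootsFinset hp.pos 1
  have hfac : x ^ p + y ^ p = ∏ η ∈ nthRootsFinset p (1 : O), (x + η * y) :=
    hζ.pow_add_pow_eq_prod_add_mul x y (hp.odd_of_ne_two hodd)
  -- Step 1: `ζ - 1` divides each factor
  have hdiv : ∀ η : O, η ^ p = 1 → ζ - 1 ∣ x + η * y := by
    have h1 : ζ - 1 ∣ ∏ η ∈ nthRootsFinset p (1 : O), (x + η * y) := by
      rw [← hfac, heq]
      refine Dvd.dvd.mul_left (dvd_pow ?_ hp.ne_zero) _
      exact Dvd.dvd.mul_right (dvd_pow_self _ (by omega)) _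
    obtain ⟨η₁, hη₁, hd⟩ := (hl.dvd_finsetProd_iff _).1 h1
    intro η hη
    have h2 : x + η * y = (x + η₁ * y) + (η - η₁) * y := by ring
    rw [h2]
    exact dvd_add hd (Dvd.dvd.mul_right (root_sub_root_dvd hp hζ hη ((hmem _).1 hη₁)) _)
  have hW' : ∀ η : O, ∃ w : O, η ^ p = 1 → x + η * y = (ζ - 1) * w := by
    intro η
    by_cases hη : η ^ p = 1
    · obtain ⟨w, hw⟩ := hdiv η hη
      exact ⟨w, fun _ => hw⟩
    · exact ⟨0, fun h => absurd h hη⟩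
  choose W hW using hW'
  -- difference of two `W`
  have hdiff : ∀ η η' : O, η ^ p = 1 → η' ^ p = 1 → η ≠ η' →
      ∃ u : Oˣ, W η - W η' = u * y := by
    intro η η' hη hη' hne
    obtain ⟨u, hu⟩ := root_sub_root_assoc hp hζ hη hη' hne
    refine ⟨u, mul_left_cancel₀ hl0 ?_⟩
    rw [mul_sub, ← hW η hη, ← hW η' hη', ← mul_assoc, hu]
    ring
  -- at most one `W η` is divisible by `ζ - 1`
  have hL1 : ∀ η η' : O, η ^ p = 1 → η' ^ p = 1 → η ≠ η' → ζ - 1 ∣ W η → ¬ ζ - 1 ∣ W η' := by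
    intro η η' hη hη' hne h1 h2
    obtain ⟨u, hu⟩ := hdiff η η' hη hη' hne
    have h5 : ζ - 1 ∣ (u : O) * y := hu ▸ dvd_sub h1 h2
    exact hy (Units.dvd_mul_left.1 h5)
  -- Step 2: existence of `η₀`
  have hex : ∃ η₀ : O, η₀ ^ p = 1 ∧ ζ - 1 ∣ W η₀ := by
    have hfin : Finite (O ⧸ Ideal.span {ζ - 1}) :=
      Nat.finite_of_card_ne_zero (by rw [hcard]; exact hp.ne_zero)
    let f : (nthRootsFinset p (1 : O)) → O ⧸ Ideal.span {ζ - 1} :=
      fun η => Ideal.Quotient.mk _ (W η)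
    have hinj : Function.Injective f := by
      intro η η' hff
      by_contra hne
      have hne' : (η : O) ≠ η' := fun h => hne (Subtype.ext h)
      have h1 : ζ - 1 ∣ W η - W η' := by
        rw [← Ideal.mem_span_singleton, ← Ideal.Quotient.eq]; exact hff
      obtain ⟨u, hu⟩ := hdiff η η' ((hmem _).1 η.2) ((hmem _).1 η'.2) hne'
      rw [hu] at h1
      exact hy (Units.dvd_mul_left.1 h1)
    have hbij := hinj.bijective_of_nat_card_le
      (by rw [hcard, Nat.card_eq_finsetCard, hζ.card_nthRootsFinset])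
    obtain ⟨η₀, hη₀⟩ := hbij.2 0
    refine ⟨η₀, (hmem _).1 η₀.2, ?_⟩
    rw [← Ideal.mem_span_singleton, ← Ideal.Quotient.eq_zero_iff_mem]; exact hη₀
  obtain ⟨η₀, hη₀, hlW₀⟩ := hex
  -- the product formula
  have hprod : ∏ η ∈ nthRootsFinset p (1 : O), W η = ε * ((ζ - 1) ^ (m - 1) * z) ^ p := by
    have h1 : ∏ η ∈ nthRootsFinset p (1 : O), (x + η * y) =
        (ζ - 1) ^ p * ∏ η ∈ nthRootsFinset p (1 : O), W η := by
      have hc : (ζ - 1) ^ p = ∏ _η ∈ nthRootsFinset p (1 : O), (ζ - 1) := by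
        rw [prod_const, hζ.card_nthRootsFinset]
      rw [hc, ← prod_mul_distrib]
      exact prod_congr rfl (fun η hη => hW η ((hmem η).1 hη))
    have h2 : (ζ - 1) ^ m = (ζ - 1) * (ζ - 1) ^ (m - 1) := by
      rw [← pow_succ']; congr 1; omega
    apply mul_left_cancel₀ (pow_ne_zero p hl0)
    rw [← h1, ← hfac, heq, h2]
    generalize ζ - 1 = l
    ring
  refine ⟨η₀, W, hη₀, hW, hlW₀, fun η hη hne => hL1 η₀ η hη₀ hη (Ne.symm hne) hlW₀, ?_, hprod⟩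
  -- pairwise coprimality
  intro η η' hη hη' hne
  refine isCoprime_of_prime_dvd ?_ ?_
  · rintro ⟨h1, h2⟩
    obtain ⟨u, hu⟩ := hdiff η η' hη hη' hne
    rw [h1, h2, sub_zero] at hu
    have hy0 : y = 0 := by
      rcases mul_eq_zero.1 hu.symm with h | h
      · exact absurd h u.ne_zero
      · exact h
    exact hy (hy0 ▸ dvd_zero _)
  · intro q hq hq1 hq2
    obtain ⟨u, hu⟩ := root_sub_root_assoc hp hζ hη hη' hne
    -- `q ∣ (ζ - 1) * u * y` and `q ∣ (ζ - 1) * u * x`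
    have h3 : q ∣ (ζ - 1) * y := by
      have h4 : (ζ - 1) * W η - (ζ - 1) * W η' = (ζ - 1) * y * u := by
        rw [← hW η hη, ← hW η' hη', mul_right_comm, hu]; ring
      exact Units.dvd_mul_right.1 (h4 ▸ dvd_sub (Dvd.dvd.mul_left hq1 _) (Dvd.dvd.mul_left hq2 _))
    have h5 : q ∣ (ζ - 1) * x := by
      have h6 : η * ((ζ - 1) * W η') - η' * ((ζ - 1) * W η) = (ζ - 1) * x * u := by
        rw [← hW η hη, ← hW η' hη', mul_right_comm, hu]; ring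
      exact Units.dvd_mul_right.1
        (h6 ▸ dvd_sub (Dvd.dvd.mul_left (Dvd.dvd.mul_left hq2 _) _)
          (Dvd.dvd.mul_left (Dvd.dvd.mul_left hq1 _) _))
    by_cases hql : q ∣ ζ - 1
    · have hlq : ζ - 1 ∣ q := (hq.associated_of_dvd hl hql).symm.dvd
      exact hL1 η η' hη hη' hne (hlq.trans hq1) (hlq.trans hq2)
    · have hqy : q ∣ y := (hq.dvd_or_dvd h3).resolve_left hql
      have hqx : q ∣ x := (hq.dvd_or_dvd h5).resolve_left hql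
      exact hq.not_isUnit (hxy.isUnit_of_dvd' hqx hqy)

/-- In a PID, a factor of a unit times a `k`-th power which is coprime to its cofactor is a unit
times a `k`-th power. -/
lemma exists_unit_mul_pow [IsPrincipalIdealRing O] {a b c : O} {ε : Oˣ} {k : ℕ}
    (hab : IsCoprime a b) (h : a * b = ε * c ^ k) : ∃ (u : Oˣ) (d : O), a = u * d ^ k := by
  have h1 : Associated (c ^ k) (a * b) := ⟨ε, by rw [h, mul_comm]⟩
  obtain ⟨d, u, hu⟩ := exists_associated_pow_of_associated_pow_mul hab h1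
  exact ⟨u, d, by rw [← hu, mul_comm]⟩

/-- The descent step: a solution with exponent `m ≥ 1` forces `m ≥ 2` and yields a solution with
exponent `m - 1`. -/
theorem descent_step [IsPrincipalIdealRing O] {p : ℕ} (hp : p.Prime) (hodd : p ≠ 2) {ζ : O}
    (hζ : IsPrimitiveRoot ζ p) (hl : Prime (ζ - 1))
    (hcard : Nat.card (O ⧸ Ideal.span {ζ - 1}) = p)
    (hlp : Associated ((ζ - 1) ^ (p - 1)) (p : O))
    (hK : ∀ u : Oˣ, ∀ n : ℤ, (p : O) ∣ (u : O) - n → ∃ v : Oˣ, u = v ^ p)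
    {m : ℕ} (hm : 1 ≤ m) (h : Sol p ζ m) : 2 ≤ m ∧ Sol p ζ (m - 1) := by
  classical
  obtain ⟨x, y, z, ε, -, hy, hz, hxy, heq⟩ := h
  obtain ⟨η₀, W, hη₀, hW, hlW₀, hnW, hcop, hprod⟩ :=
    factor_data hp hodd hζ hl hcard hm hy hxy heq
  have hl0 : ζ - 1 ≠ 0 := hl.ne_zero
  have hmem : ∀ η : O, η ∈ nthRootsFinset p (1 : O) ↔ η ^ p = 1 :=
    fun η => mem_nthRootsFinset hp.pos 1
  have hsplit : ∀ η, η ^ p = 1 → W η * ∏ η' ∈ (nthRootsFinset p (1 : O)).erase η, W η' =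
      ε * ((ζ - 1) ^ (m - 1) * z) ^ p :=
    fun η hη => (mul_prod_erase _ W ((hmem η).2 hη)).trans hprod
  have hcop' : ∀ η, η ^ p = 1 →
      IsCoprime (W η) (∏ η' ∈ (nthRootsFinset p (1 : O)).erase η, W η') :=
    fun η hη => IsCoprime.prod_right (fun η' hη' =>
      hcop η η' hη ((hmem η').1 (mem_of_mem_erase hη')) (ne_of_mem_erase hη').symm)
  -- `ζ - 1` does not divide the complementary product of `η₀`
  have hnd : ¬ ζ - 1 ∣ ∏ η' ∈ (nthRootsFinset p (1 : O)).erase η₀, W η' := by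
    intro hd
    obtain ⟨η', hη', hd'⟩ := (hl.dvd_finsetProd_iff _).1 hd
    exact hnW η' ((hmem η').1 (mem_of_mem_erase hη')) (ne_of_mem_erase hη') hd'
  have hpow : (ζ - 1) ^ ((m - 1) * p) ∣ W η₀ := by
    apply hl.pow_dvd_of_dvd_mul_right _ hnd
    rw [hsplit η₀ hη₀, mul_pow, ← pow_mul]
    exact Dvd.dvd.mul_left (Dvd.intro _ rfl) _
  obtain ⟨W₀, hW₀⟩ := hpow
  -- `m ≥ 2`
  have hm2 : 2 ≤ m := by
    by_contra hlt
    have hm1 : m = 1 := by omega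
    subst hm1
    have h1 : ζ - 1 ∣ (ε : O) * ((ζ - 1) ^ (1 - 1) * z) ^ p :=
      (hsplit η₀ hη₀) ▸ Dvd.dvd.mul_right hlW₀ _
    simp only [Nat.sub_self, pow_zero, one_mul] at h1
    exact hz (hl.dvd_of_dvd_pow (Units.dvd_mul_left.1 h1))
  have hW₀eq : W₀ * ∏ η' ∈ (nthRootsFinset p (1 : O)).erase η₀, W η' = ε * z ^ p := by
    apply mul_left_cancel₀ (pow_ne_zero ((m - 1) * p) hl0)
    rw [← mul_assoc, ← hW₀, hsplit η₀ hη₀]
    ring
  have hW₀cop : IsCoprime W₀ (∏ η' ∈ (nthRootsFinset p (1 : O)).erase η₀, W η') :=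
    (hcop' η₀ hη₀).of_isCoprime_of_dvd_left (hW₀ ▸ Dvd.intro_left _ rfl)
  obtain ⟨u₀, ρ₀, hρ₀⟩ := exists_unit_mul_pow hW₀cop hW₀eq
  have hlρ₀ : ¬ ζ - 1 ∣ ρ₀ := by
    intro hd
    have h1 : ζ - 1 ∣ (ε : O) * z ^ p :=
      hW₀eq ▸ Dvd.dvd.mul_right (hρ₀ ▸ Dvd.dvd.mul_left (dvd_pow hd hp.ne_zero) _) _
    exact hz (hl.dvd_of_dvd_pow (Units.dvd_mul_left.1 h1))
  -- the other two roots
  have hζp : ζ ^ p = 1 := hζ.pow_eq_one
  have hζ1 : ζ ≠ 1 := hζ.ne_one hp.one_lt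
  have hη₀0 : η₀ ≠ 0 := by
    rintro rfl
    simp [hp.ne_zero] at hη₀
  have hη₁ : (η₀ * ζ) ^ p = 1 := by rw [mul_pow, hη₀, hζp, one_mul]
  have hη₂ : (η₀ * ζ ^ (p - 1)) ^ p = 1 := by
    rw [mul_pow, hη₀, one_mul, ← pow_mul, mul_comm, pow_mul, hζp, one_pow]
  have hη₁₀ : η₀ * ζ ≠ η₀ := by
    intro h
    have h1 : η₀ * ζ = η₀ * 1 := by rw [mul_one]; exact h
    exact hζ1 (mul_left_cancel₀ hη₀0 h1)
  have hη₂₀ : η₀ * ζ ^ (p - 1) ≠ η₀ := by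
    intro h
    have h1 : η₀ * ζ ^ (p - 1) = η₀ * 1 := by rw [mul_one]; exact h
    have h2 := hζ.dvd_of_pow_eq_one _ (mul_left_cancel₀ hη₀0 h1)
    have h3 := Nat.le_of_dvd (Nat.sub_pos_of_lt hp.one_lt) h2
    have h4 := hp.two_le
    omega
  have hζζ : ζ * ζ ^ (p - 1) = 1 := by
    rw [← pow_succ', Nat.sub_add_cancel hp.one_lt.le, hζp]
  have hη₁₂ : η₀ * ζ ≠ η₀ * ζ ^ (p - 1) := by
    intro h
    have h1 : ζ = ζ ^ (p - 1) := mul_left_cancel₀ hη₀0 h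
    have h2 : ζ ^ 2 = 1 := by
      rw [pow_two]
      nth_rewrite 2 [h1]
      exact hζζ
    have h3 := hζ.dvd_of_pow_eq_one _ h2
    exact hodd ((Nat.prime_dvd_prime_iff_eq hp Nat.prime_two).1 h3)
  obtain ⟨u₁, ρ₁, hρ₁⟩ := exists_unit_mul_pow (hcop' _ hη₁) (hsplit _ hη₁)
  obtain ⟨u₂, ρ₂, hρ₂⟩ := exists_unit_mul_pow (hcop' _ hη₂) (hsplit _ hη₂)
  have hlρ₁ : ¬ ζ - 1 ∣ ρ₁ := fun hd =>
    hnW _ hη₁ hη₁₀ (hρ₁ ▸ Dvd.dvd.mul_left (dvd_pow hd hp.ne_zero) _)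
  have hlρ₂ : ¬ ζ - 1 ∣ ρ₂ := fun hd =>
    hnW _ hη₂ hη₂₀ (hρ₂ ▸ Dvd.dvd.mul_left (dvd_pow hd hp.ne_zero) _)
  have hρ₁₂ : IsCoprime ρ₁ ρ₂ := by
    have h1 := hcop _ _ hη₁ hη₂ hη₁₂
    rw [hρ₁, hρ₂] at h1
    have h2 : IsCoprime (ρ₁ ^ p) (ρ₂ ^ p) :=
      (h1.of_isCoprime_of_dvd_left (Dvd.intro_left _ rfl)).of_isCoprime_of_dvd_right
        (Dvd.intro_left _ rfl)
    exact (IsCoprime.pow_iff hp.pos hp.pos).1 h2
  -- the units `ζ` and `1 + ζ`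
  obtain ⟨ζu, hζu⟩ := hζ.isUnit hp.ne_zero
  obtain ⟨su, hsu⟩ : IsUnit (1 + ζ) := by
    have h1 := hζ.geom_sum_isUnit hp.two_le (j := 2)
      ((Nat.coprime_primes Nat.prime_two hp).2 (Ne.symm hodd))
    simpa [sum_range_succ] using h1
  have hη' : (u₁ : O) * ((ζu * u₂ * u₁⁻¹ : Oˣ) : O) = ζ * u₂ := by
    calc (u₁ : O) * ((ζu * u₂ * u₁⁻¹ : Oˣ) : O)
        = (ζu : O) * u₂ * ((u₁ : O) * ((u₁⁻¹ : Oˣ) : O)) := by push_cast; ring
      _ = ζ * u₂ := by rw [Units.mul_inv, mul_one, hζu]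
  have hε' : (u₁ : O) * ((su * u₀ * u₁⁻¹ : Oˣ) : O) = (1 + ζ) * u₀ := by
    calc (u₁ : O) * ((su * u₀ * u₁⁻¹ : Oˣ) : O)
        = (su : O) * u₀ * ((u₁ : O) * ((u₁⁻¹ : Oˣ) : O)) := by push_cast; ring
      _ = (1 + ζ) * u₀ := by rw [Units.mul_inv, mul_one, hsu]
  generalize ζu * u₂ * u₁⁻¹ = η' at hη'
  generalize su * u₀ * u₁⁻¹ = ε' at hε'
  -- the linear relation
  have hrel : ρ₁ ^ p + (η' : O) * ρ₂ ^ p = (ε' : O) * ((ζ - 1) ^ (m - 1) * ρ₀) ^ p := by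
    have e₀ := hW η₀ hη₀
    have e₁ := hW _ hη₁
    have e₂ := hW _ hη₂
    rw [hW₀, hρ₀] at e₀
    rw [hρ₁] at e₁
    rw [hρ₂] at e₂
    have hlin : (x + η₀ * ζ * y) + ζ * (x + η₀ * ζ ^ (p - 1) * y) = (1 + ζ) * (x + η₀ * y) := by
      calc (x + η₀ * ζ * y) + ζ * (x + η₀ * ζ ^ (p - 1) * y)
          = x + η₀ * ζ * y + ζ * x + η₀ * (ζ * ζ ^ (p - 1)) * y := by ring
        _ = (1 + ζ) * (x + η₀ * y) := by rw [hζζ]; ring
    rw [e₀, e₁, e₂] at hlin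
    apply mul_left_cancel₀ (mul_ne_zero hl0 u₁.ne_zero)
    calc (ζ - 1) * u₁ * (ρ₁ ^ p + (η' : O) * ρ₂ ^ p)
        = (ζ - 1) * (u₁ * ρ₁ ^ p) + ((u₁ : O) * η') * ((ζ - 1) * ρ₂ ^ p) := by ring
      _ = (ζ - 1) * (u₁ * ρ₁ ^ p) + ζ * ((ζ - 1) * (u₂ * ρ₂ ^ p)) := by rw [hη']; ring
      _ = (1 + ζ) * ((ζ - 1) * ((ζ - 1) ^ ((m - 1) * p) * (u₀ * ρ₀ ^ p))) := hlin
      _ = (ζ - 1) * ((1 + ζ) * u₀) * ((ζ - 1) ^ (m - 1) * ρ₀) ^ p := by
        rw [mul_pow, ← pow_mul]; ring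
      _ = (ζ - 1) * u₁ * ((ε' : O) * ((ζ - 1) ^ (m - 1) * ρ₀) ^ p) := by rw [← hε']; ring
  -- `η'` is congruent to an integer modulo `p`
  have hp_dvd : (p : O) ∣ ((ζ - 1) ^ (m - 1) * ρ₀) ^ p := by
    refine (p_dvd_sub_one_pow hlp).trans (pow_dvd_pow_of_dvd ?_ p)
    exact Dvd.dvd.mul_right (dvd_pow_self _ (by omega)) _
  obtain ⟨n₁, hn₁⟩ := exists_int_pow_sub_dvd hp hζ hcard hlp ρ₁
  obtain ⟨n₂, hn₂⟩ := exists_int_pow_sub_dvd hp hζ hcard hlp ρ₂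
  have hn₂' : ¬ (p : ℤ) ∣ n₂ := by
    intro hd
    have h1 : (p : O) ∣ (n₂ : O) := by
      obtain ⟨k, rfl⟩ := hd
      push_cast
      exact Dvd.intro _ rfl
    have h2 : (p : O) ∣ ρ₂ ^ p := by
      have h3 := dvd_add hn₂ h1
      rwa [sub_add_cancel] at h3
    exact hlρ₂ (hl.dvd_of_dvd_pow ((sub_one_dvd_p hp hlp).trans h2))
  obtain ⟨a, b, hab⟩ := (Prime.coprime_iff_not_dvd (Nat.prime_iff_prime_int.1 hp)).2 hn₂'
  have hsum : (p : O) ∣ (n₁ : O) + η' * n₂ := by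
    have h1 : (n₁ : O) + η' * n₂ =
        (ρ₁ ^ p + (η' : O) * ρ₂ ^ p) - (ρ₁ ^ p - n₁) - η' * (ρ₂ ^ p - n₂) := by ring
    rw [h1, hrel]
    exact dvd_sub (dvd_sub (Dvd.dvd.mul_left hp_dvd _) hn₁) (Dvd.dvd.mul_left hn₂ _)
  have hcong : (p : O) ∣ (η' : O) - ((-(b * n₁) : ℤ) : O) := by
    have hab' : (a : O) * p + b * n₂ = 1 := by exact_mod_cast congrArg (Int.cast : ℤ → O) hab
    have h1 : (η' : O) - ((-(b * n₁) : ℤ) : O) =
        (p : O) * (η' * a) + b * ((n₁ : O) + η' * n₂) := by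
      push_cast
      calc (η' : O) - -((b : O) * n₁) = η' * 1 + b * n₁ := by ring
        _ = η' * ((a : O) * p + b * n₂) + b * n₁ := by rw [hab']
        _ = (p : O) * (η' * a) + b * ((n₁ : O) + η' * n₂) := by ring
    rw [h1]
    exact dvd_add (Dvd.intro _ rfl) (Dvd.dvd.mul_left hsum _)
  obtain ⟨v, hv⟩ := hK η' _ hcong
  refine ⟨hm2, ρ₁, v * ρ₂, ρ₀, ε', hlρ₁, ?_, hlρ₀, ?_, ?_⟩
  · exact fun hd => hlρ₂ (Units.dvd_mul_left.1 hd)
  · exact (isCoprime_mul_unit_left_right v.isUnit _ _).2 hρ₁₂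
  · rw [mul_pow, ← Units.val_pow_eq_pow_val, ← hv]
    exact hrel

/-- There is no solution of the generalised Fermat equation with exponent `m ≥ 1`. -/
theorem not_sol [IsPrincipalIdealRing O] {p : ℕ} (hp : p.Prime) (hodd : p ≠ 2) {ζ : O}
    (hζ : IsPrimitiveRoot ζ p) (hl : Prime (ζ - 1))
    (hcard : Nat.card (O ⧸ Ideal.span {ζ - 1}) = p)
    (hlp : Associated ((ζ - 1) ^ (p - 1)) (p : O))
    (hK : ∀ u : Oˣ, ∀ n : ℤ, (p : O) ∣ (u : O) - n → ∃ v : Oˣ, u = v ^ p)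
    {m : ℕ} (hm : 1 ≤ m) : ¬ Sol p ζ m := by
  induction m with
  | zero => omega
  | succ k ih =>
    intro h
    obtain ⟨h2, h'⟩ := descent_step hp hodd hζ hl hcard hlp hK hm h
    exact ih (by omega) (by simpa using h')

end Abstract

section Concrete

open NumberField

variable {p : ℕ} [hpF : Fact p.Prime] {K : Type*} [Field K] [NumberField K]
  [IsCyclotomicExtension {p} ℚ K]

/-- Case II of Fermat's Last Theorem for the odd prime `p`, in the normalised form `p ∣ c`,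
assuming that the ring of integers of the `p`-th cyclotomic field is a PID and Kummer's lemma. -/
theorem caseII_aux (hodd : p ≠ 2) [IsPrincipalIdealRing (𝓞 K)]
    (hK : ∀ u : (𝓞 K)ˣ, ∀ n : ℤ, (p : 𝓞 K) ∣ (u : 𝓞 K) - n → ∃ v : (𝓞 K)ˣ, u = v ^ p)
    {a b c : ℤ} (hab : IsCoprime a b) (hc : c ≠ 0) (hpa : ¬ (p : ℤ) ∣ a) (hpb : ¬ (p : ℤ) ∣ b)
    (hpc : (p : ℤ) ∣ c) : a ^ p + b ^ p ≠ c ^ p := by
  intro heq
  have hp : p.Prime := hpF.out
  have hζ := IsCyclotomicExtension.zeta_spec p ℚ K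
  have hζ' : IsPrimitiveRoot hζ.toInteger p := hζ.toInteger_isPrimitiveRoot
  have hl : Prime (hζ.toInteger - 1) := hζ.zeta_sub_one_prime'
  have hcard : Nat.card (𝓞 K ⧸ Ideal.span {hζ.toInteger - 1}) = p := by
    rw [hζ.card_quotient_toInteger_sub_one, hζ.norm_toInteger_sub_one_of_prime_ne_two' hodd]
    simp
  have hlp : Associated ((hζ.toInteger - 1) ^ (p - 1)) (p : 𝓞 K) :=
    IsCyclotomicExtension.Rat.associated_zeta_sub_one_pow_prime p hζ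
  have hc' : (c : 𝓞 K) ≠ 0 := by exact_mod_cast hc
  have hfin : FiniteMultiplicity (hζ.toInteger - 1) (c : 𝓞 K) :=
    FiniteMultiplicity.of_not_isUnit hl.not_isUnit hc'
  obtain ⟨z, hz, hlz⟩ := hfin.exists_eq_pow_mul_and_not_dvd
  have hlc : hζ.toInteger - 1 ∣ (c : 𝓞 K) := by
    obtain ⟨k, rfl⟩ := hpc
    push_cast
    exact Dvd.dvd.mul_right (sub_one_dvd_p hp hlp) _
  have hm : 1 ≤ multiplicity (hζ.toInteger - 1) (c : 𝓞 K) := by
    by_contra hlt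
    have h0 : multiplicity (hζ.toInteger - 1) (c : 𝓞 K) = 0 := by omega
    rw [h0, pow_zero, one_mul] at hz
    exact hlz (hz ▸ hlc)
  refine not_sol hp hodd hζ' hl hcard hlp hK hm ⟨a, b, z, 1, ?_, ?_, hlz, hab.intCast, ?_⟩
  · exact fun h => hpa (int_dvd_of_sub_one_dvd hp hl hlp h)
  · exact fun h => hpb (int_dvd_of_sub_one_dvd hp hl hlp h)
  · rw [Units.val_one, one_mul, ← hz]
    exact_mod_cast congrArg (Int.cast : ℤ → 𝓞 K) heq

/-- Case II of Fermat's Last Theorem for the odd prime `p`, assuming that the ring of integers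
of the `p`-th cyclotomic field is a PID and Kummer's lemma. -/
theorem caseII (hodd : p ≠ 2) [IsPrincipalIdealRing (𝓞 K)]
    (hK : ∀ u : (𝓞 K)ˣ, ∀ n : ℤ, (p : 𝓞 K) ∣ (u : 𝓞 K) - n → ∃ v : (𝓞 K)ˣ, u = v ^ p)
    {a b c : ℤ} (hab : IsCoprime a b) (habc : a * b * c ≠ 0) (hdvd : (p : ℤ) ∣ a * b * c) :
    a ^ p + b ^ p ≠ c ^ p := by
  intro heq
  have hp : p.Prime := hpF.out
  have hpZ : Prime (p : ℤ) := Nat.prime_iff_prime_int.1 hp
  have hpodd : Odd p := hp.odd_of_ne_two hodd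
  have ha0 : a ≠ 0 := fun h => habc (by simp [h])
  have hb0 : b ≠ 0 := fun h => habc (by simp [h])
  have hc0 : c ≠ 0 := fun h => habc (by simp [h])
  have hac : IsCoprime a c := by
    rw [← IsCoprime.pow_right_iff hp.pos, ← heq]
    have h3 : IsCoprime a (b ^ p) := hab.pow_right
    have h4 : a ^ p + b ^ p = b ^ p + a * a ^ (p - 1) := by
      rw [← pow_succ', Nat.sub_add_cancel hp.pos, add_comm]
    rw [h4]
    exact h3.add_mul_left_right _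
  have hbc : IsCoprime b c := by
    rw [← IsCoprime.pow_right_iff hp.pos, ← heq]
    have h3 : IsCoprime b (a ^ p) := hab.symm.pow_right
    have h4 : a ^ p + b ^ p = a ^ p + b * b ^ (p - 1) := by
      rw [← pow_succ', Nat.sub_add_cancel hp.pos]
    rw [h4]
    exact h3.add_mul_left_right _
  have hnot : ∀ {u v : ℤ}, IsCoprime u v → (p : ℤ) ∣ u → ¬ (p : ℤ) ∣ v :=
    fun huv hu hv => hpZ.not_isUnit (huv.isUnit_of_dvd' hu hv)
  rcases hpZ.dvd_or_dvd hdvd with h | hpc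
  · rcases hpZ.dvd_or_dvd h with hpa | hpb
    · -- `p ∣ a`: use `c ^ p + (-b) ^ p = a ^ p`
      refine caseII_aux (K := K) hodd hK (a := c) (b := -b) (c := a) hbc.symm.neg_right ha0
        (hnot hac hpa) ?_ hpa ?_
      · rw [dvd_neg]; exact hnot hab hpa
      · rw [hpodd.neg_pow, ← heq]; ring
    · -- `p ∣ b`: use `c ^ p + (-a) ^ p = b ^ p`
      refine caseII_aux (K := K) hodd hK (a := c) (b := -a) (c := b) hac.symm.neg_right hb0
        (hnot hbc hpb) ?_ hpb ?_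
      · rw [dvd_neg]; exact hnot hab.symm hpb
      · rw [hpodd.neg_pow, ← heq]; ring
  · exact caseII_aux (K := K) hodd hK hab hc0 (hnot hac.symm hpc) (hnot hbc.symm hpc) hpc heq

end Concrete

end Fermat.Agent.S11.helper1391
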