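import Mathlib

set_option autoImplicit false

namespace Fermat.Agent.S11.helper1511

open NumberField Ideal Polynomial Algebra Finset Nat

section Numeric

/-- Numeric bound for the Minkowski constant of `ℚ(ζ₁₁)`. -/
theorem minkowski_num_lt :
    (4 / Real.pi) ^ 5 * (((10 : ℕ).factorial : ℝ) / (10 : ℝ) ^ 10 * √((11 : ℝ) ^ 9)) < 60 := by
  have hpi : (3.14 : ℝ) < Real.pi := Real.pi_gt_d2
  have h1 : (4 / Real.pi : ℝ) < 4 / 3.14 :=
    div_lt_div_of_pos_left (by norm_num) (by norm_num) hpi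
  have h1' : (4 / Real.pi : ℝ) ^ 5 < (4 / 3.14) ^ 5 := by
    apply pow_lt_pow_left₀ h1 (by positivity) (by norm_num)
  have h2 : √((11 : ℝ) ^ 9) ≤ 48560 := by
    rw [Real.sqrt_le_iff]
    constructor <;> norm_num
  have hfact : ((10 : ℕ).factorial : ℝ) = 3628800 := by
    norm_num [Nat.factorial]
  rw [hfact]
  calc (4 / Real.pi) ^ 5 * ((3628800 : ℝ) / (10 : ℝ) ^ 10 * √((11 : ℝ) ^ 9))
      ≤ (4 / 3.14) ^ 5 * ((3628800 : ℝ) / (10 : ℝ) ^ 10 * 48560) := by
        gcongr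
    _ < 60 := by norm_num

end Numeric

theorem not_two_primes {p f n q₁ q₂ : ℕ} (hp : p.Prime) (h : p ^ f = n) (h1 : q₁.Prime)
    (h2 : q₂.Prime) (hne : q₁ ≠ q₂) (hd1 : q₁ ∣ n) (hd2 : q₂ ∣ n) : False := by
  subst h
  exact hne (((Nat.prime_dvd_prime_iff_eq h1 hp).mp (h1.dvd_of_dvd_pow hd1)).trans
    ((Nat.prime_dvd_prime_iff_eq h2 hp).mp (h2.dvd_of_dvd_pow hd2)).symm)

theorem lt_pow_orderOf (p : ℕ) (hp : p.Prime) (h11 : p ≠ 11) (h23 : p ≠ 23) :
    59 < p ^ orderOf (p : ZMod 11) := by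
  have hcop : Nat.Coprime p 11 := by
    rw [Nat.coprime_primes hp (by norm_num)]
    exact h11
  set f := orderOf (p : ZMod 11) with hf
  have hf0 : 0 < f := by
    have h := orderOf_pos (ZMod.unitOfCoprime p hcop)
    rw [← orderOf_units, ZMod.coe_unitOfCoprime] at h
    exact h
  have h1 : ((p ^ f : ℕ) : ZMod 11) = 1 := by
    rw [Nat.cast_pow]
    exact pow_orderOf_eq_one _
  have h2 : p ^ f % 11 = 1 := by
    have := (ZMod.natCast_eq_natCast_iff' (p ^ f) 1 11).mp (by simpa using h1)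
    simpa using this
  by_contra hlt
  have hlt' : p ^ f ≤ 59 := not_lt.mp hlt
  have hne1 : p ^ f ≠ 1 := fun h => by
    have := Nat.pow_eq_one.mp h
    rcases this with h | h
    · exact hp.ne_one h
    · exact hf0.ne' h
  have hcases : p ^ f = 12 ∨ p ^ f = 23 ∨ p ^ f = 34 ∨ p ^ f = 45 ∨ p ^ f = 56 := by omega
  rcases hcases with h | h | h | h | h
  · exact not_two_primes hp h Nat.prime_two Nat.prime_three (by norm_num) (by norm_num)
      (by norm_num)
  · have hdvd : p ∣ 23 := h ▸ dvd_pow_self p hf0.ne'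
    exact h23 ((Nat.prime_dvd_prime_iff_eq hp (by norm_num)).mp hdvd)
  · exact not_two_primes hp h Nat.prime_two (by norm_num : Nat.Prime 17) (by norm_num)
      (by norm_num) (by norm_num)
  · exact not_two_primes hp h Nat.prime_three Nat.prime_five (by norm_num) (by norm_num)
      (by norm_num)
  · exact not_two_primes hp h Nat.prime_two (by norm_num : Nat.Prime 7) (by norm_num)
      (by norm_num) (by norm_num)


section
variable {n : ℕ} [NeZero n] {K L : Type*} [Field K] [Field L] [Algebra K L] {ζ : L}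

/-- Generalisation of `IsPrimitiveRoot.sub_one_norm_eq_eval_cyclotomic` to `ζ - a`, `a : ℤ`. -/
theorem sub_intCast_norm_eq_eval_cyclotomic (hζ : IsPrimitiveRoot ζ n)
    [IsCyclotomicExtension {n} K L] (h : 2 < n)
    (hirr : Irreducible (cyclotomic n K)) (a : ℤ) :
    Algebra.norm K (ζ - (a : L)) = ↑(eval a (cyclotomic n ℤ)) := by
  have := IsCyclotomicExtension.neZero' n K L
  let E := AlgebraicClosure L
  obtain ⟨z, hz⟩ := IsAlgClosed.exists_root _ (degree_cyclotomic_pos n E (NeZero.pos _)).ne.symm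
  apply (algebraMap K E).injective
  let := IsCyclotomicExtension.finiteDimensional {n} K L
  let := IsCyclotomicExtension.isGalois {n} K L
  rw [norm_eq_prod_embeddings]
  conv_lhs =>
    congr
    rfl
    ext
    rw [← neg_sub, map_neg, map_sub, map_intCast, neg_eq_neg_one_mul]
  rw [prod_mul_distrib, prod_const, Finset.card_univ, AlgHom.card,
    IsCyclotomicExtension.finrank L hirr, (totient_even h).neg_one_pow, one_mul]
  have Hprod : (Finset.univ.prod fun σ : L →ₐ[K] E => (a : E) - σ ζ) =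
      eval (a : E) (cyclotomic' n E) := by
    rw [cyclotomic', eval_prod, ← @Finset.prod_attach E E, ← univ_eq_attach]
    refine Fintype.prod_equiv (hζ.embeddingsEquivPrimitiveRoots E hirr) _ _ fun σ => ?_
    simp
  have : NeZero (n : E) := NeZero.of_faithfulSMul K _ n
  rw [Hprod, cyclotomic', ← cyclotomic_eq_prod_X_sub_primitiveRoots (isRoot_cyclotomic_iff.1 hz),
    ← map_cyclotomic_int, _root_.map_intCast, eval_intCast_map, eq_intCast, Int.cast_id]

end

section Eleven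

variable (K : Type*) [Field K] [NumberField K] [IsCyclotomicExtension {11} ℚ K]

theorem eval_two_cyclotomic_eleven : eval 2 (cyclotomic 11 ℤ) = 2047 := by
  have : Fact (Nat.Prime 11) := ⟨by norm_num⟩
  rw [cyclotomic_prime ℤ 11]
  simp [Finset.sum_range_succ]

/-- There is a principal prime ideal of `𝓞 K` above `23`, namely the one generated by
`1 + ζ² + ζ⁶`. -/
theorem exists_isPrincipal_mem_primesOver_23 :
    ∃ P ∈ primesOver (span {((23 : ℕ) : ℤ)}) (𝓞 K), Submodule.IsPrincipal P := by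
  have hζ := IsCyclotomicExtension.zeta_spec 11 ℚ K
  set ζ : 𝓞 K := hζ.toInteger with hζdef
  have hζ' : IsPrimitiveRoot ζ 11 := hζ.toInteger_isPrimitiveRoot
  have hΦ : 1 + ζ + ζ ^ 2 + ζ ^ 3 + ζ ^ 4 + ζ ^ 5 + ζ ^ 6 + ζ ^ 7 + ζ ^ 8 + ζ ^ 9 + ζ ^ 10 = 0 := by
    have := hζ'.geom_sum_eq_zero (by norm_num)
    simpa [Finset.sum_range_succ] using this
  set α : 𝓞 K := 1 + ζ ^ 2 + ζ ^ 6 with hα
  set δ : 𝓞 K := 1 + ζ ^ 5 + ζ ^ 8 + ζ ^ 9 with hδ
  have h1 : α * δ = -(ζ - 2) := by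
    linear_combination (-1 + 2 * ζ - ζ ^ 3 + ζ ^ 5) * hΦ
  have h2 : α * (7 - ζ - 5 * ζ ^ 2 - 7 * ζ ^ 3 - 8 * ζ ^ 4 + 3 * ζ ^ 5 - 3 * ζ ^ 6 - 6 * ζ ^ 7
      + 4 * ζ ^ 8 + 9 * ζ ^ 9) = 23 := by
    linear_combination (-16 + 15 * ζ + 3 * ζ ^ 2 - 10 * ζ ^ 3 - 5 * ζ ^ 4 + 9 * ζ ^ 5) * hΦ
  have h3 : δ * (43 + 20 * ζ + 53 * ζ ^ 2 + 25 * ζ ^ 3 + 11 * ζ ^ 4 + 4 * ζ ^ 5 + 45 * ζ ^ 6
      + 21 * ζ ^ 7 + 9 * ζ ^ 8 + 3 * ζ ^ 9) = 89 := by
    linear_combination (-46 + 66 * ζ + 33 * ζ ^ 2 - 28 * ζ ^ 3 - 14 * ζ ^ 4 + 36 * ζ ^ 5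
      + 18 * ζ ^ 6 + 9 * ζ ^ 7 + 3 * ζ ^ 8) * hΦ
  -- the norm of `ζ - 2`
  have hn : Algebra.norm ℤ (ζ - 2) = 2047 := by
    apply Int.cast_injective (α := ℚ)
    rw [Algebra.coe_norm_int]
    have := sub_intCast_norm_eq_eval_cyclotomic (K := ℚ) hζ (by norm_num)
      (cyclotomic.irreducible_rat (by norm_num)) 2
    rw [eval_two_cyclotomic_eleven] at this
    have hcoe : ((ζ - 2 : 𝓞 K) : K) = IsCyclotomicExtension.zeta 11 ℚ K - ((2 : ℤ) : K) := by
      have h := hζ.coe_toInteger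
      have h2' : ((2 : 𝓞 K) : K) = 2 := map_ofNat (algebraMap (𝓞 K) K) 2
      have hs : ((ζ - 2 : 𝓞 K) : K) = (ζ : K) - ((2 : 𝓞 K) : K) := map_sub (algebraMap (𝓞 K) K) ζ 2
      rw [hs, h2', hζdef]
      exact congrArg₂ (· - ·) h (by norm_num)
    rw [hcoe, this]
  have hab : absNorm (span {α}) * absNorm (span {δ}) = 2047 := by
    rw [← map_mul, Ideal.span_singleton_mul_span_singleton, h1, Ideal.span_singleton_neg,
      Ideal.absNorm_span_singleton, hn]
    rfl
  -- `α ∣ 23` and `δ ∣ 89`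
  have hα23 : absNorm (span {α}) ∣ 23 ^ Module.finrank ℤ (𝓞 K) := by
    rw [← Ideal.absNorm_span_natCast (S := 𝓞 K) 23]
    apply Ideal.absNorm_dvd_absNorm_of_le
    rw [Ideal.span_singleton_le_iff_mem, Ideal.mem_span_singleton]
    exact ⟨_, by rw [h2]; simp⟩
  have hδ89 : absNorm (span {δ}) ∣ 89 ^ Module.finrank ℤ (𝓞 K) := by
    rw [← Ideal.absNorm_span_natCast (S := 𝓞 K) 89]
    apply Ideal.absNorm_dvd_absNorm_of_le
    rw [Ideal.span_singleton_le_iff_mem, Ideal.mem_span_singleton]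
    exact ⟨_, by rw [h3]; simp⟩
  have hα : absNorm (span {α}) ∣ 23 := by
    have hcop : Nat.Coprime (absNorm (span {α})) 89 :=
      Nat.Coprime.coprime_dvd_left hα23 (Nat.Coprime.pow_left _ (by norm_num))
    exact hcop.dvd_of_dvd_mul_right ⟨absNorm (span {δ}), by rw [hab]⟩
  have hδ : absNorm (span {δ}) ∣ 89 := by
    have hcop : Nat.Coprime (absNorm (span {δ})) 23 :=
      Nat.Coprime.coprime_dvd_left hδ89 (Nat.Coprime.pow_left _ (by norm_num))
    exact hcop.dvd_of_dvd_mul_left ⟨absNorm (span {α}), by rw [mul_comm (absNorm (span {δ})), hab]⟩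
  have hα' : absNorm (span {α}) = 23 := by
    rcases (Nat.dvd_prime (by norm_num : Nat.Prime 23)).mp hα with h | h
    · rcases (Nat.dvd_prime (by norm_num : Nat.Prime 89)).mp hδ with h' | h'
      · rw [h, h'] at hab; norm_num at hab
      · rw [h, h'] at hab; norm_num at hab
    · exact h
  have hprime : (span {α}).IsPrime :=
    Ideal.isPrime_of_irreducible_absNorm (by rw [hα']; exact (by norm_num : Nat.Prime 23))
  have hmem : ((23 : ℕ) : 𝓞 K) ∈ span {α} := by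
    rw [← hα']
    exact Ideal.absNorm_mem _
  have : Fact (Nat.Prime 23) := ⟨by norm_num⟩
  have hlies : (span {α}).LiesOver (span {((23 : ℕ) : ℤ)}) := by
    rw [liesOver_iff]
    refine IsMaximal.eq_of_le (Int.ideal_span_isMaximal_of_prime 23) IsPrime.ne_top' ?_
    rw [span_singleton_le_iff_mem, mem_comap, algebraMap_int_eq, map_natCast]
    exact hmem
  exact ⟨span {α}, ⟨hprime, hlies⟩, ⟨⟨α, rfl⟩⟩⟩

/-- The ring of integers of `ℚ(ζ₁₁)` is a principal ideal domain. -/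
theorem eleven_pid : IsPrincipalIdealRing (𝓞 K) := by
  have : Fact (Nat.Prime 11) := ⟨by norm_num⟩
  have : IsGalois ℚ K := IsCyclotomicExtension.isGalois {11} ℚ K
  have hM : ⌊(4 / Real.pi) ^ InfinitePlace.nrComplexPlaces K *
      (((Module.finrank ℚ K).factorial : ℝ) / (Module.finrank ℚ K : ℝ) ^ (Module.finrank ℚ K) *
        √|(discr K : ℝ)|)⌋₊ ≤ 59 := by
    rw [IsCyclotomicExtension.Rat.discr_prime 11 K, IsCyclotomicExtension.finrank (n := 11) K
      (cyclotomic.irreducible_rat (by norm_num)),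
      IsCyclotomicExtension.Rat.nrComplexPlaces_eq_totient_div_two 11,
      Nat.totient_prime (by norm_num)]
    apply Nat.le_of_lt_succ
    rw [Nat.floor_lt (by positivity)]
    have h := minkowski_num_lt
    norm_num at h ⊢
    exact h
  apply RingOfIntegers.isPrincipalIdealRing_of_isPrincipal_of_lt_or_isPrincipal_of_mem_primesOver_of_mem_Icc
  intro p hp hpp
  by_cases h11 : p = 11
  · subst h11
    have hζ := IsCyclotomicExtension.zeta_spec 11 ℚ K
    have hK' : IsCyclotomicExtension {11 ^ (0 + 1)} ℚ K := by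
      rw [zero_add, pow_one]
      infer_instance
    have hζ' : IsPrimitiveRoot (IsCyclotomicExtension.zeta 11 ℚ K) (11 ^ (0 + 1)) := by
      rw [zero_add, pow_one]
      exact hζ
    exact ⟨span {hζ'.toInteger - 1}, ⟨IsCyclotomicExtension.Rat.isPrime_span_zeta_sub_one 11 0 hζ',
      IsCyclotomicExtension.Rat.liesOver_span_zeta_sub_one 11 0 hζ'⟩, Or.inr ⟨⟨_, rfl⟩⟩⟩
  by_cases h23 : p = 23
  · subst h23
    obtain ⟨P, hP, hPp⟩ := exists_isPrincipal_mem_primesOver_23 K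
    exact ⟨P, hP, Or.inr hPp⟩
  · have : Fact p.Prime := ⟨hpp⟩
    obtain ⟨⟨P, hP1, hP2⟩⟩ := (span {(p : ℤ)}).nonempty_primesOver (S := 𝓞 K)
    refine ⟨P, ⟨hP1, hP2⟩, Or.inl ?_⟩
    rw [IsCyclotomicExtension.Rat.inertiaDeg_eq_of_not_dvd p K P (m := 11)
      (by rw [Nat.prime_dvd_prime_iff_eq hpp (by norm_num)]; exact h11)]
    exact lt_of_le_of_lt hM (lt_pow_orderOf p hpp h11 h23)

end Eleven

end Fermat.Agent.S11.helper1511

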