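/-
helper1631: the ring of integers of the 11-th cyclotomic field is a PID.
Route: Mathlib Minkowski-bound criterion (bound < 59), inertia degrees of unramified primes
via the order of `p` mod `11`, and an explicit principal prime above `23`.
-/
import Mathlib

set_option autoImplicit false

namespace Fermat.Agent.S11.helper1631

open NumberField Polynomial Module InfinitePlace Nat Real Ideal

section general

variable {p : ℕ} [NeZero p] {K : Type*} [Field K] [CharZero K] {ζ : K}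

theorem minpoly_toInteger (hζ : IsPrimitiveRoot ζ p) :
    minpoly ℤ hζ.toInteger = cyclotomic p ℤ := by
  rw [← RingOfIntegers.minpoly_coe]
  exact (cyclotomic_eq_minpoly hζ (NeZero.pos p)).symm

variable [IsCyclotomicExtension {p} ℚ K]

theorem aeval_minpoly_gen (hζ : IsPrimitiveRoot ζ p)
    {R : Type*} [CommRing R] (r : R) (hr : (cyclotomic p R).eval r = 0) :
    aeval r (minpoly ℤ hζ.integralPowerBasis.gen) = 0 := by
  rw [hζ.integralPowerBasis_gen, minpoly_toInteger hζ, aeval_def, eval₂_eq_eval_map,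
    map_cyclotomic]
  exact hr

/-- The ring hom from `𝓞 K` (`K` the `p`-th cyclotomic field) to a commutative ring `R`
sending `ζ` to a root `r` of the `p`-th cyclotomic polynomial. -/
noncomputable def evalHom (hζ : IsPrimitiveRoot ζ p)
    {R : Type*} [CommRing R] (r : R) (hr : (cyclotomic p R).eval r = 0) : 𝓞 K →+* R :=
  (hζ.integralPowerBasis.lift r (aeval_minpoly_gen hζ r hr)).toRingHom

theorem evalHom_zeta (hζ : IsPrimitiveRoot ζ p)
    {R : Type*} [CommRing R] (r : R) (hr : (cyclotomic p R).eval r = 0) :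
    evalHom hζ r hr hζ.toInteger = r := by
  have := hζ.integralPowerBasis.lift_gen r (aeval_minpoly_gen hζ r hr)
  rw [hζ.integralPowerBasis_gen] at this
  exact this

/-- Every element of `𝓞 K` is congruent to a rational integer modulo an ideal containing
`ζ - n`. -/
theorem exists_int_sub_mem (hζ : IsPrimitiveRoot ζ p) (I : Ideal (𝓞 K)) (n : ℤ)
    (hn : hζ.toInteger - (n : 𝓞 K) ∈ I) (x : 𝓞 K) : ∃ m : ℤ, x - (m : 𝓞 K) ∈ I := by
  have hx : x ∈ Algebra.adjoin ℤ {hζ.toInteger} := by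
    rw [IsCyclotomicExtension.Rat.adjoin_singleton_eq_top hζ]
    exact Algebra.mem_top
  induction hx using Algebra.adjoin_induction with
  | mem y hy =>
    rw [Set.mem_singleton_iff] at hy
    exact ⟨n, hy ▸ hn⟩
  | algebraMap r => exact ⟨r, by simp⟩
  | add y z _ _ hy hz =>
    obtain ⟨a, ha⟩ := hy
    obtain ⟨b, hb⟩ := hz
    refine ⟨a + b, ?_⟩
    have : y + z - ((a + b : ℤ) : 𝓞 K) = (y - a) + (z - b) := by push_cast; ring
    rw [this]
    exact I.add_mem ha hb
  | mul y z _ _ hy hz =>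
    obtain ⟨a, ha⟩ := hy
    obtain ⟨b, hb⟩ := hz
    refine ⟨a * b, ?_⟩
    have : y * z - ((a * b : ℤ) : 𝓞 K) = (y - a) * z + a * (z - b) := by push_cast; ring
    rw [this]
    exact I.add_mem (I.mul_mem_right _ ha) (I.mul_mem_left _ hb)

end general

section eleven

variable (K : Type*) [Field K] [NumberField K] [IsCyclotomicExtension {11} ℚ K]

theorem minkowski_lt : (4 / π) ^ nrComplexPlaces K *
    ((finrank ℚ K)! / (finrank ℚ K) ^ (finrank ℚ K) * √|(discr K : ℝ)|) < 59 := by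
  have : Fact (Nat.Prime 11) := ⟨by norm_num⟩
  rw [IsCyclotomicExtension.Rat.discr_prime 11 K, IsCyclotomicExtension.finrank (n := 11) K
    (cyclotomic.irreducible_rat (by simp)),
    IsCyclotomicExtension.Rat.nrComplexPlaces_eq_totient_div_two 11,
    totient_prime (by norm_num : Nat.Prime 11)]
  have h1 : (4 / π) ^ 5 < (4 / 3.1415) ^ 5 := by
    gcongr
    exact Real.pi_gt_d4
  have h2 : √|((-1 : ℤ) ^ ((11 - 1) / 2) * (11 : ℤ) ^ (11 - 2) : ℤ)| < (48560 : ℝ) := by
    rw [Real.sqrt_lt' (by norm_num)]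
    norm_num
  have h3 : (0 : ℝ) ≤ √|((-1 : ℤ) ^ ((11 - 1) / 2) * (11 : ℤ) ^ (11 - 2) : ℤ)| :=
    Real.sqrt_nonneg _
  have h4 : (0:ℝ) < (4 / π) ^ 5 := by positivity
  have e1 : (11 - 1) / 2 = 5 := by norm_num
  have e2 : ((11 - 1 : ℕ) : ℝ) = 10 := by norm_num
  have e3 : (11 - 1)! = 3628800 := by decide
  rw [e1, e3, e2]
  calc (4 / π) ^ 5 * ((3628800 : ℕ) / (10:ℝ) ^ (11 - 1) *
        √|((-1 : ℤ) ^ ((11 - 1) / 2) * (11 : ℤ) ^ (11 - 2) : ℤ)|)
      ≤ (4 / π) ^ 5 * ((3628800 : ℕ) / (10:ℝ) ^ (11 - 1) * 48560) := by gcongr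
    _ < (4 / 3.1415) ^ 5 * ((3628800 : ℕ) / (10:ℝ) ^ (11 - 1) * 48560) := by gcongr
    _ < 59 := by norm_num

theorem exists_principal_prime_over_23 :
    ∃ P ∈ primesOver (span {((23 : ℕ) : ℤ)}) (𝓞 K), Submodule.IsPrincipal P := by
  have hζ := IsCyclotomicExtension.zeta_spec 11 ℚ K
  have : Fact (Nat.Prime 11) := ⟨by norm_num⟩
  set z := hζ.toInteger with hz
  have hsum : 1 + z + z ^ 2 + z ^ 3 + z ^ 4 + z ^ 5 + z ^ 6 + z ^ 7 + z ^ 8 + z ^ 9 + z ^ 10 = 0 := by
    have := hζ.toInteger_isPrimitiveRoot.geom_sum_eq_zero (by norm_num)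
    simp only [Finset.sum_range_succ, Finset.sum_range_zero, pow_zero, pow_one, zero_add] at this
    exact this
  have hr : (cyclotomic 11 (ZMod 23)).eval 2 = 0 := by
    rw [cyclotomic_prime]
    simp only [Finset.sum_range_succ, Finset.sum_range_zero, eval_add, eval_pow, eval_X,
      eval_one, pow_zero, pow_one, zero_add]
    decide
  let f : 𝓞 K →+* ZMod 23 := evalHom hζ 2 hr
  have hfz : f z = 2 := evalHom_zeta hζ 2 hr
  set α : 𝓞 K := z ^ 4 + z ^ 3 - 1 with hα
  have hfα : f α = 0 := by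
    rw [hα, map_sub, map_add, map_pow, map_pow, hfz, map_one]
    decide
  have h23 : ((23 : ℕ) : 𝓞 K) ∈ span {α} := by
    rw [mem_span_singleton]
    refine ⟨1 + 13 * z - 4 * z ^ 2 - z ^ 3 + 12 * z ^ 4 + 7 * z ^ 5 - 7 * z ^ 6 + 9 * z ^ 7
      + 17 * z ^ 8 - 2 * z ^ 9, ?_⟩
    rw [hα]
    push_cast
    linear_combination (24 - 11 * z - 17 * z ^ 2 + 2 * z ^ 3) * hsum
  have hz2 : z - ((2 : ℤ) : 𝓞 K) ∈ span {α} := by
    rw [mem_span_singleton]
    refine ⟨-z + z ^ 2 - z ^ 4 + z ^ 6 - z ^ 7 - z ^ 8 + z ^ 9, ?_⟩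
    rw [hα]
    push_cast
    linear_combination (-2 + 2 * z + z ^ 2 - z ^ 3) * hsum
  have hker : span {α} = RingHom.ker f := by
    apply le_antisymm
    · rw [span_singleton_le_iff_mem, RingHom.mem_ker]
      exact hfα
    · intro x hx
      rw [RingHom.mem_ker] at hx
      obtain ⟨m, hm⟩ := exists_int_sub_mem hζ (span {α}) 2 hz2 x
      have h1 : f (x - (m : 𝓞 K)) = 0 := by
        have : span {α} ≤ RingHom.ker f := by
          rw [span_singleton_le_iff_mem, RingHom.mem_ker]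
          exact hfα
        exact (RingHom.mem_ker).mp (this hm)
      rw [map_sub, hx, zero_sub, neg_eq_zero, map_intCast,
        ZMod.intCast_zmod_eq_zero_iff_dvd] at h1
      obtain ⟨c, rfl⟩ := h1
      have : x = (x - ((((23 : ℕ) : ℤ) * c : ℤ) : 𝓞 K)) + ((23 : ℕ) : 𝓞 K) * (c : 𝓞 K) := by
        push_cast; ring
      rw [this]
      exact (span {α}).add_mem hm ((span {α}).mul_mem_right _ h23)
  have : Fact (Nat.Prime 23) := ⟨by norm_num⟩
  have hprime : (span {α}).IsPrime := by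
    rw [hker]
    exact RingHom.ker_isPrime f
  refine ⟨span {α}, ⟨hprime, ?_⟩, ⟨α, rfl⟩⟩
  rw [liesOver_iff]
  refine IsMaximal.eq_of_le (Int.ideal_span_isMaximal_of_prime 23) IsPrime.ne_top' ?_
  rw [span_singleton_le_iff_mem, mem_comap, algebraMap_int_eq, map_natCast]
  exact h23

theorem orderOf_lemma (q f : ℕ) (hf : 0 < f)
    (h : ((q : ZMod 11)) ^ f = 1 ∧ ∀ m < f, 0 < m → (q : ZMod 11) ^ m ≠ 1) :
    orderOf (q : ZMod 11) = f :=
  (orderOf_eq_iff hf).mpr h

theorem prime_cases : ∀ q : ℕ, q ≤ 58 → q.Prime → q ≠ 11 → q ≠ 23 →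
    q = 2 ∨ q = 3 ∨ q = 5 ∨ q = 7 ∨ q = 13 ∨ q = 17 ∨ q = 19 ∨ q = 29 ∨ q = 31 ∨ q = 37 ∨
      q = 41 ∨ q = 43 ∨ q = 47 ∨ q = 53 := by
  intro q hq hp h11 h23
  interval_cases q <;> first | omega | (exfalso; revert hp; norm_num)

theorem lt_pow_orderOf (q : ℕ) (hq : q.Prime) (hq58 : q ≤ 58) (h11 : q ≠ 11) (h23 : q ≠ 23) :
    58 < q ^ orderOf (q : ZMod 11) := by
  rcases prime_cases q hq58 hq h11 h23 with
    rfl | rfl | rfl | rfl | rfl | rfl | rfl | rfl | rfl | rfl | rfl | rfl | rfl | rfl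
  · rw [orderOf_lemma 2 10 (by norm_num) (by decide)]; norm_num
  · rw [orderOf_lemma 3 5 (by norm_num) (by decide)]; norm_num
  · rw [orderOf_lemma 5 5 (by norm_num) (by decide)]; norm_num
  · rw [orderOf_lemma 7 10 (by norm_num) (by decide)]; norm_num
  · rw [orderOf_lemma 13 10 (by norm_num) (by decide)]; norm_num
  · rw [orderOf_lemma 17 10 (by norm_num) (by decide)]; norm_num
  · rw [orderOf_lemma 19 10 (by norm_num) (by decide)]; norm_num
  · rw [orderOf_lemma 29 10 (by norm_num) (by decide)]; norm_num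
  · rw [orderOf_lemma 31 5 (by norm_num) (by decide)]; norm_num
  · rw [orderOf_lemma 37 5 (by norm_num) (by decide)]; norm_num
  · rw [orderOf_lemma 41 10 (by norm_num) (by decide)]; norm_num
  · rw [orderOf_lemma 43 2 (by norm_num) (by decide)]; norm_num
  · rw [orderOf_lemma 47 5 (by norm_num) (by decide)]; norm_num
  · rw [orderOf_lemma 53 5 (by norm_num) (by decide)]; norm_num

/-- If `IsCyclotomicExtension {11} ℚ K` then `𝓞 K` is a principal ideal domain. -/
theorem eleven_pid : IsPrincipalIdealRing (𝓞 K) := by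
  have : IsGalois ℚ K := IsCyclotomicExtension.isGalois {11} ℚ K
  have hζ := IsCyclotomicExtension.zeta_spec 11 ℚ K
  have : Fact (Nat.Prime 11) := ⟨by norm_num⟩
  apply RingOfIntegers.isPrincipalIdealRing_of_isPrincipal_of_lt_or_isPrincipal_of_mem_primesOver_of_mem_Icc
  intro p hp hprime
  have hM : ⌊(4 / π) ^ nrComplexPlaces K *
      ((finrank ℚ K)! / (finrank ℚ K) ^ (finrank ℚ K) * √|(discr K : ℝ)|)⌋₊ ≤ 58 := by
    have := minkowski_lt K
    exact Nat.lt_succ_iff.mp ((Nat.floor_lt (by positivity)).mpr (by exact_mod_cast this))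
  have hp58 : p ≤ 58 := (Finset.mem_Icc.mp hp).2.trans hM
  have hp1 : 1 ≤ p := (Finset.mem_Icc.mp hp).1
  by_cases h11 : p = 11
  · subst h11
    have hmem : ((11 : ℕ) : 𝓞 K) ∈ span {hζ.toInteger - 1} := by
      rw [mem_span_singleton]
      have := (IsCyclotomicExtension.Rat.zeta_sub_one_dvd_intCast_iff' 11 hζ (n := 11)).mpr
        dvd_rfl
      exact_mod_cast this
    have hprime' : (span {hζ.toInteger - 1}).IsPrime :=
      IsCyclotomicExtension.Rat.isPrime_span_zeta_sub_one' 11 hζ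
    refine ⟨span {hζ.toInteger - 1}, ⟨hprime', ?_⟩, Or.inr ⟨_, rfl⟩⟩
    rw [liesOver_iff]
    refine IsMaximal.eq_of_le (Int.ideal_span_isMaximal_of_prime 11) IsPrime.ne_top' ?_
    rw [span_singleton_le_iff_mem, mem_comap, algebraMap_int_eq, map_natCast]
    exact hmem
  by_cases h23 : p = 23
  · subst h23
    obtain ⟨P, hP, hprinc⟩ := exists_principal_prime_over_23 K
    exact ⟨P, hP, Or.inr hprinc⟩
  have : Fact p.Prime := ⟨hprime⟩
  obtain ⟨⟨P, hP1, hP2⟩⟩ := (span {(p : ℤ)}).nonempty_primesOver (S := 𝓞 K)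
  refine ⟨P, ⟨hP1, hP2⟩, Or.inl ?_⟩
  have hndvd : ¬ p ∣ 11 := by
    intro h
    exact h11 ((Nat.prime_dvd_prime_iff_eq hprime (by norm_num)).mp h)
  rw [IsCyclotomicExtension.Rat.inertiaDeg_eq_of_not_dvd p K P (m := 11) hndvd]
  refine lt_of_le_of_lt hM ?_
  exact lt_pow_orderOf p hprime hp58 h11 h23

end eleven

end Fermat.Agent.S11.helper1631
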