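import Mathlib

/-!
# The ring of integers of `ℚ(ζ₁₁)` is a principal ideal domain

Minkowski bound (Galois version from Mathlib) plus an explicit generator of a prime above `23`.
-/

set_option autoImplicit false

namespace Fermat.Agent.S11.helper611

open NumberField Polynomial Ideal

section

variable (K : Type*) [Field K] [NumberField K] [IsCyclotomicExtension {11} ℚ K]

/-- Numerical estimate of the Minkowski bound of `ℚ(ζ₁₁)`. -/
theorem minkowski_lt :
    (4 / Real.pi) ^ InfinitePlace.nrComplexPlaces K *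
      (((Module.finrank ℚ K).factorial : ℝ) / (Module.finrank ℚ K : ℝ) ^ Module.finrank ℚ K *
        √|(discr K : ℝ)|) < 67 := by
  have : Fact (Nat.Prime 11) := ⟨by norm_num⟩
  rw [IsCyclotomicExtension.Rat.discr_prime 11 K, IsCyclotomicExtension.Rat.finrank 11 K,
    IsCyclotomicExtension.Rat.nrComplexPlaces_eq_totient_div_two 11 K,
    Nat.totient_prime (by norm_num : Nat.Prime 11)]
  have h1 : (4 / Real.pi) ^ 5 ≤ (4 / 3.14 : ℝ) ^ 5 := by
    have hpi : (3.14 : ℝ) < Real.pi := Real.pi_gt_d2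
    have hpos : (0 : ℝ) < Real.pi := Real.pi_pos
    gcongr
  have h2 : √(2357947691 : ℝ) < 48559 := by
    rw [Real.sqrt_lt' (by norm_num)]
    norm_num
  norm_num [Nat.factorial]
  calc (4 / Real.pi) ^ 5 * ((567 : ℝ) / 1562500 * √(2357947691 : ℝ))
      ≤ (4 / 3.14 : ℝ) ^ 5 * ((567 : ℝ) / 1562500 * 48559) := by
        gcongr
    _ < 67 := by norm_num

/-- Lower bound for `p ^ f` where `f` is the order of `p` modulo `11`. -/
theorem le_pow_orderOf (p : ℕ) (hp0 : (p : ZMod 11) ≠ 0)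
    (h : ∀ k < 10, 0 < k → (p : ZMod 11) ^ k = 1 → 67 ≤ p ^ k) (h10 : 67 ≤ p ^ 10) :
    67 ≤ p ^ orderOf (p : ZMod 11) := by
  have : Fact (Nat.Prime 11) := ⟨by norm_num⟩
  have hpow : (p : ZMod 11) ^ 10 = 1 := ZMod.pow_card_sub_one_eq_one hp0
  have hdvd : orderOf (p : ZMod 11) ∣ 10 := orderOf_dvd_of_pow_eq_one hpow
  have hle : orderOf (p : ZMod 11) ≤ 10 := Nat.le_of_dvd (by norm_num) hdvd
  have hpos : 0 < orderOf (p : ZMod 11) := Nat.pos_of_dvd_of_pos hdvd (by norm_num)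
  rcases hle.lt_or_eq with hlt | heq
  · exact h _ hlt hpos (pow_orderOf_eq_one _)
  · rw [heq]; exact h10

end

section

variable {K : Type*} [Field K] [NumberField K] [IsCyclotomicExtension {11} ℚ K]
  {ζ : K} (hζ : IsPrimitiveRoot ζ 11)

omit [NumberField K] [IsCyclotomicExtension {11} ℚ K] in
theorem toInteger_sum_eq_zero :
    1 + hζ.toInteger + hζ.toInteger ^ 2 + hζ.toInteger ^ 3 + hζ.toInteger ^ 4 +
      hζ.toInteger ^ 5 + hζ.toInteger ^ 6 + hζ.toInteger ^ 7 + hζ.toInteger ^ 8 +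
      hζ.toInteger ^ 9 + hζ.toInteger ^ 10 = 0 := by
  have h := hζ.toInteger_isPrimitiveRoot.geom_sum_eq_zero (by norm_num : 1 < 11)
  simpa [Finset.sum_range_succ] using h

theorem aeval_two_minpoly :
    aeval (2 : ZMod 23) (minpoly ℤ hζ.integralPowerBasis.gen) = 0 := by
  have : Fact (Nat.Prime 11) := ⟨by norm_num⟩
  rw [hζ.integralPowerBasis_gen, ← RingOfIntegers.minpoly_coe]
  change aeval (2 : ZMod 23) (minpoly ℤ ζ) = 0
  rw [← cyclotomic_eq_minpoly hζ (by norm_num), cyclotomic_prime]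
  simp [Finset.sum_range_succ]
  decide

/-- The ring homomorphism `𝓞 K → ZMod 23` sending `ζ` to `2`. -/
noncomputable def toZMod23 : 𝓞 K →ₐ[ℤ] ZMod 23 :=
  hζ.integralPowerBasis.lift 2 (aeval_two_minpoly hζ)

theorem toZMod23_zeta : toZMod23 hζ hζ.toInteger = 2 := by
  have := hζ.integralPowerBasis.lift_gen 2 (aeval_two_minpoly hζ)
  rwa [hζ.integralPowerBasis_gen] at this

theorem ker_toZMod23_eq :
    RingHom.ker (toZMod23 hζ : 𝓞 K →+* ZMod 23) =
      span {1 + hζ.toInteger + hζ.toInteger ^ 2 + hζ.toInteger ^ 4} := by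
  set η := hζ.toInteger with hη
  have hΦ := toInteger_sum_eq_zero hζ
  rw [← hη] at hΦ
  have hβ : (1 + η + η ^ 2 + η ^ 4) *
      (-8 - 12 * η - 14 * η ^ 2 - 15 * η ^ 3 - 4 * η ^ 4 - 10 * η ^ 5 - 13 * η ^ 6 - 3 * η ^ 7
        - 21 * η ^ 8 - 7 * η ^ 9) = 23 := by
    linear_combination (-31 + 11 * η - 14 * η ^ 2 - 7 * η ^ 3) * hΦ
  have hγ : (1 + η + η ^ 2 + η ^ 4) *
      (1 + η + η ^ 2 + η ^ 3 + η ^ 5 + η ^ 6 + 2 * η ^ 8) = η - 2 := by
    linear_combination (3 - 2 * η + 2 * η ^ 2) * hΦ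
  apply le_antisymm
  · intro x hx
    rw [RingHom.mem_ker] at hx
    obtain ⟨f, rfl⟩ := hζ.integralPowerBasis.exists_eq_aeval' x
    rw [hζ.integralPowerBasis_gen, ← hη] at hx ⊢
    have h1 : (toZMod23 hζ : 𝓞 K →+* ZMod 23) (aeval η f) = ((f.eval 2 : ℤ) : ZMod 23) := by
      change toZMod23 hζ (aeval η f) = _
      rw [← aeval_algHom_apply, hη, toZMod23_zeta]
      have : (2 : ZMod 23) = algebraMap ℤ (ZMod 23) 2 := by simp
      rw [this, aeval_algebraMap_apply]
      simp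
    rw [h1, ZMod.intCast_zmod_eq_zero_iff_dvd] at hx
    obtain ⟨k, hk⟩ := hx
    have h2 : η - 2 ∣ aeval η f - ((f.eval 2 : ℤ) : 𝓞 K) := by
      have := sub_dvd_eval_sub η 2 (f.map (algebraMap ℤ (𝓞 K)))
      rw [eval_map_algebraMap] at this
      have h3 : eval (2 : 𝓞 K) (f.map (algebraMap ℤ (𝓞 K))) = ((f.eval 2 : ℤ) : 𝓞 K) := by
        have : (2 : 𝓞 K) = algebraMap ℤ (𝓞 K) 2 := by simp
        rw [this, eval_map_algebraMap, aeval_algebraMap_apply]
        simp
      rwa [h3] at this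
    obtain ⟨w, hw⟩ := h2
    rw [mem_span_singleton]
    refine ⟨(1 + η + η ^ 2 + η ^ 3 + η ^ 5 + η ^ 6 + 2 * η ^ 8) * w +
      (-8 - 12 * η - 14 * η ^ 2 - 15 * η ^ 3 - 4 * η ^ 4 - 10 * η ^ 5 - 13 * η ^ 6 - 3 * η ^ 7
        - 21 * η ^ 8 - 7 * η ^ 9) * k, ?_⟩
    have hk' : ((f.eval 2 : ℤ) : 𝓞 K) = 23 * (k : 𝓞 K) := by rw [hk]; push_cast; ring
    linear_combination hw + hk' - w * hγ - (k : 𝓞 K) * hβ
  · rw [span_singleton_le_iff_mem, RingHom.mem_ker]
    change toZMod23 hζ (1 + η + η ^ 2 + η ^ 4) = 0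
    rw [map_add, map_add, map_add, map_pow, map_pow, map_one, hη, toZMod23_zeta]
    decide

end

/-- The ring of integers of the `11`-th cyclotomic field is a principal ideal domain. -/
theorem eleven_pid (K : Type*) [Field K] [NumberField K] [IsCyclotomicExtension {11} ℚ K] :
    IsPrincipalIdealRing (𝓞 K) := by
  have h11 : Fact (Nat.Prime 11) := ⟨by norm_num⟩
  have : IsGalois ℚ K := IsCyclotomicExtension.isGalois {11} ℚ K
  have hζ := IsCyclotomicExtension.zeta_spec 11 ℚ K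
  apply RingOfIntegers.isPrincipalIdealRing_of_isPrincipal_of_lt_or_isPrincipal_of_mem_primesOver_of_mem_Icc
  intro p hp hpp
  have hfl : ⌊(4 / Real.pi) ^ InfinitePlace.nrComplexPlaces K *
      (((Module.finrank ℚ K).factorial : ℝ) / (Module.finrank ℚ K : ℝ) ^ Module.finrank ℚ K *
        √|(discr K : ℝ)|)⌋₊ < 67 :=
    (Nat.floor_lt (by positivity)).mpr (by exact_mod_cast minkowski_lt K)
  have hp67 : p < 67 := lt_of_le_of_lt (Finset.mem_Icc.mp hp).2 hfl
  by_cases hp11 : p = 11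
  · subst hp11
    exact ⟨span {hζ.toInteger - 1},
      ⟨IsCyclotomicExtension.Rat.isPrime_span_zeta_sub_one' 11 hζ, by
        have := IsCyclotomicExtension.Rat.liesOver_span_zeta_sub_one 11 0 (K := K)
          (ζ := IsCyclotomicExtension.zeta 11 ℚ K) (by simp [hζ])
        simpa using this⟩,
      Or.inr ⟨_, rfl⟩⟩
  by_cases hp23 : p = 23
  · subst hp23
    have h23 : Fact (Nat.Prime 23) := ⟨by norm_num⟩
    refine ⟨RingHom.ker (toZMod23 hζ : 𝓞 K →+* ZMod 23), ⟨RingHom.ker_isPrime _, ?_⟩,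
      Or.inr ⟨_, ker_toZMod23_eq hζ⟩⟩
    have hprime : (RingHom.ker (toZMod23 hζ : 𝓞 K →+* ZMod 23)).IsPrime := RingHom.ker_isPrime _
    rw [liesOver_iff]
    have hmax : (span {((23 : ℕ) : ℤ)}).IsMaximal :=
      (span_singleton_prime (by norm_num)).mpr (by norm_num : Prime ((23 : ℕ) : ℤ)) |>.isMaximal
        (by simp)
    refine hmax.eq_of_le (IsPrime.under ℤ _).ne_top ?_
    rw [span_singleton_le_iff_mem, under_def, mem_comap, RingHom.mem_ker]
    change toZMod23 hζ (algebraMap ℤ (𝓞 K) ((23 : ℕ) : ℤ)) = 0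
    rw [AlgHom.commutes, eq_intCast, Int.cast_natCast]
    exact ZMod.natCast_self 23
  · have : Fact p.Prime := ⟨hpp⟩
    have hpr : (span {(p : ℤ)}).IsPrime :=
      (span_singleton_prime (by exact_mod_cast hpp.ne_zero)).mpr (Nat.prime_iff_prime_int.mp hpp)
    obtain ⟨⟨P, hP⟩⟩ := Ideal.nonempty_primesOver (S := 𝓞 K) (span {(p : ℤ)})
    refine ⟨P, hP, Or.inl ?_⟩
    have := hP.1
    have := hP.2
    rw [IsCyclotomicExtension.Rat.inertiaDeg_eq_of_not_dvd p K P (m := 11)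
      (fun h => hp11 ((Nat.prime_dvd_prime_iff_eq hpp (by norm_num)).mp h))]
    refine lt_of_lt_of_le hfl ?_
    interval_cases p <;>
      first
      | (exfalso; exact hp11 rfl)
      | (exfalso; exact hp23 rfl)
      | (exfalso; revert hpp; norm_num; done)
      | exact le_pow_orderOf _ (by decide) (by decide) (by norm_num)

end Fermat.Agent.S11.helper611
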