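/-
helper71: the ring of integers of the 11th cyclotomic field is a principal ideal domain.

Route: Minkowski bound (floor at most 59) + Mathlib's Galois criterion
`RingOfIntegers.isPrincipalIdealRing_of_isPrincipal_of_lt_or_isPrincipal_of_mem_primesOver_of_mem_Icc`.
Only the primes 11 (totally ramified, generated by `ζ - 1`) and 23 (split; the prime
`(23, ζ - 2)` is generated by `1 + ζ + ζ^2 + ζ^4`) have a prime of small norm above them.
-/
import Mathlib

set_option autoImplicit false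

namespace Fermat.Agent.S11.helper71

open NumberField Polynomial Ideal InfinitePlace Nat Real Module IsCyclotomicExtension.Rat
open RingOfIntegers NumberField.Ideal IsCyclotomicExtension

variable (K : Type*) [Field K] [NumberField K] [IsCyclotomicExtension {11} ℚ K]

/-- The Minkowski bound of the 11th cyclotomic field is less than `60`. -/
theorem minkowski_floor_le :
    ⌊(4 / π) ^ nrComplexPlaces K *
      ((finrank ℚ K)! / (finrank ℚ K) ^ (finrank ℚ K) * √|(discr K : ℝ)|)⌋₊ ≤ 59 := by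
  have : Fact (Nat.Prime 11) := ⟨by norm_num⟩
  rw [discr_prime 11 K,
    IsCyclotomicExtension.finrank (n := 11) K (cyclotomic.irreducible_rat (by simp)),
    nrComplexPlaces_eq_totient_div_two 11, totient_prime (by norm_num : Nat.Prime 11)]
  have hsqrt : √|(((-1 : ℤ) ^ ((11 - 1) / 2) * (11 : ℕ) ^ (11 - 2) : ℤ) : ℝ)| < 48560 := by
    rw [Real.sqrt_lt' (by norm_num)]
    norm_num
  have hpi : (4 : ℝ) / π < 4 / 3.14 := by
    apply div_lt_div_of_pos_left (by norm_num) (by norm_num) Real.pi_gt_d2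
  have hpos : (0 : ℝ) < 4 / π := by positivity
  have h1 : ((4 : ℝ) / π) ^ ((11 - 1) / 2) < (4 / 3.14) ^ 5 := by
    have : (11 - 1) / 2 = 5 := by norm_num
    rw [this]
    exact pow_lt_pow_left₀ hpi hpos.le (by norm_num)
  have hlt : (4 / π) ^ ((11 - 1) / 2) *
      (((11 - 1 : ℕ)! : ℝ) / ((11 - 1 : ℕ) : ℝ) ^ (11 - 1) *
        √|(((-1 : ℤ) ^ ((11 - 1) / 2) * (11 : ℕ) ^ (11 - 2) : ℤ) : ℝ)|) < 60 := by
    have h2 : ((11 - 1 : ℕ)! : ℝ) / ((11 - 1 : ℕ) : ℝ) ^ (11 - 1) = 3628800 / 10 ^ 10 := by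
      norm_num [Nat.factorial]
    rw [h2]
    calc (4 / π) ^ ((11 - 1) / 2) * (3628800 / 10 ^ 10 *
          √|(((-1 : ℤ) ^ ((11 - 1) / 2) * (11 : ℕ) ^ (11 - 2) : ℤ) : ℝ)|)
        ≤ (4 / 3.14) ^ 5 * (3628800 / 10 ^ 10 * 48560) := by
          apply mul_le_mul h1.le _ (by positivity) (by positivity)
          apply mul_le_mul_of_nonneg_left hsqrt.le (by positivity)
      _ < 60 := by norm_num
  exact Nat.le_of_lt_succ ((Nat.floor_lt (by positivity)).mpr (by exact_mod_cast hlt))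

lemma ord10 (x : ZMod 11) (h : x ^ 10 = 1) (h5 : x ^ 5 ≠ 1) (h2 : x ^ 2 ≠ 1) :
    orderOf x = 10 := by
  refine orderOf_eq_of_pow_and_pow_div_prime (by norm_num) h ?_
  intro q hq hq10
  have : q = 2 ∨ q = 5 := by
    have h10 : q ∣ 2 * 5 := by simpa using hq10
    rcases (Nat.Prime.dvd_mul hq).mp h10 with h | h
    · left; exact (Nat.prime_dvd_prime_iff_eq hq (by norm_num)).mp h
    · right; exact (Nat.prime_dvd_prime_iff_eq hq (by norm_num)).mp h
  rcases this with rfl | rfl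
  · simpa using h5
  · simpa using h2

lemma ord5 (x : ZMod 11) (h : x ^ 5 = 1) (h1 : x ≠ 1) : orderOf x = 5 :=
  have : Fact (Nat.Prime 5) := ⟨by norm_num⟩
  orderOf_eq_prime h h1

lemma ord2 (x : ZMod 11) (h : x ^ 2 = 1) (h1 : x ≠ 1) : orderOf x = 2 :=
  have : Fact (Nat.Prime 2) := ⟨by norm_num⟩
  orderOf_eq_prime h h1

/-- A prime `p ≠ 11` whose order modulo `11` is `f` with `p ^ f > 59` has a prime above it of
large norm. -/
lemma exists_P_of_order (B : ℕ) (hB : B ≤ 59) (p f : ℕ) (hp : p.Prime) (hp11 : ¬ p ∣ 11)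
    (hf : orderOf (p : ZMod 11) = f) (hbig : 59 < p ^ f) :
    ∃ P ∈ primesOver (span {(p : ℤ)}) (𝓞 K),
      B < p ^ P.inertiaDeg ℤ ∨ Submodule.IsPrincipal P := by
  have : Fact p.Prime := ⟨hp⟩
  have : (span {(p : ℤ)}).IsPrime := by
    rw [Ideal.span_singleton_prime (by exact_mod_cast hp.ne_zero)]
    exact Nat.prime_iff_prime_int.mp hp
  obtain ⟨⟨P, hP1, hP2⟩⟩ := (span {(p : ℤ)}).nonempty_primesOver (S := 𝓞 K)
  refine ⟨P, ⟨hP1, hP2⟩, Or.inl ?_⟩
  rw [inertiaDeg_eq_of_not_dvd p K P hp11, hf]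
  omega

/-- The prime above `11` is principal. -/
lemma exists_P_eleven (B : ℕ) :
    ∃ P ∈ primesOver (span {((11 : ℕ) : ℤ)}) (𝓞 K),
      B < 11 ^ P.inertiaDeg ℤ ∨ Submodule.IsPrincipal P := by
  have : Fact (Nat.Prime 11) := ⟨by norm_num⟩
  have : (span {((11 : ℕ) : ℤ)}).IsPrime := by
    rw [Ideal.span_singleton_prime (by norm_num)]
    exact Nat.prime_iff_prime_int.mp (by norm_num)
  obtain ⟨⟨P, hP1, hP2⟩⟩ := (span {((11 : ℕ) : ℤ)}).nonempty_primesOver (S := 𝓞 K)
  refine ⟨P, ⟨hP1, hP2⟩, Or.inr ?_⟩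
  rw [eq_span_zeta_sub_one_of_liesOver' 11 K (zeta_spec 11 ℚ K) P]
  exact ⟨⟨_, rfl⟩⟩

lemma phi_eq_zero {R : Type*} [CommRing R] [IsDomain R] {z : R} (hz : IsPrimitiveRoot z 11) :
    1 + z + z ^ 2 + z ^ 3 + z ^ 4 + z ^ 5 + z ^ 6 + z ^ 7 + z ^ 8 + z ^ 9 + z ^ 10 = 0 := by
  have := hz.geom_sum_eq_zero (by norm_num)
  simpa [Finset.sum_range_succ] using this

lemma alpha_mul_beta {R : Type*} [CommRing R] {z : R}
    (h : 1 + z + z ^ 2 + z ^ 3 + z ^ 4 + z ^ 5 + z ^ 6 + z ^ 7 + z ^ 8 + z ^ 9 + z ^ 10 = 0) :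
    (1 + z + z ^ 2 + z ^ 4) * (-8 - 12 * z - 14 * z ^ 2 - 15 * z ^ 3 - 4 * z ^ 4 - 10 * z ^ 5
      - 13 * z ^ 6 - 3 * z ^ 7 - 21 * z ^ 8 - 7 * z ^ 9) = 23 := by
  linear_combination (-31 + 11 * z - 14 * z ^ 2 - 7 * z ^ 3) * h

lemma alpha_mul_gamma {R : Type*} [CommRing R] {z : R}
    (h : 1 + z + z ^ 2 + z ^ 3 + z ^ 4 + z ^ 5 + z ^ 6 + z ^ 7 + z ^ 8 + z ^ 9 + z ^ 10 = 0) :
    (1 + z + z ^ 2 + z ^ 4) * (1 + z + z ^ 2 + z ^ 3 + z ^ 5 + z ^ 6 + 2 * z ^ 8) = z - 2 := by
  linear_combination (3 - 2 * z + 2 * z ^ 2) * h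

lemma alpha_eq {R : Type*} [CommRing R] (z : R) :
    1 + z + z ^ 2 + z ^ 4 = 23 * 1 + (z - 2) * (z ^ 3 + 2 * z ^ 2 + 5 * z + 11) := by
  ring

/-- The ideal `(23, ζ - 2)` is generated by `1 + ζ + ζ^2 + ζ^4`. -/
lemma span_pair_eq_span_alpha {R : Type*} [CommRing R] [IsDomain R] {z : R}
    (hz : IsPrimitiveRoot z 11) :
    span {(23 : R), z - 2} = span {1 + z + z ^ 2 + z ^ 4} := by
  have h := phi_eq_zero hz
  apply le_antisymm
  · rw [Ideal.span_le]
    intro x hx
    rcases hx with rfl | rfl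
    · exact Ideal.mem_span_singleton.mpr ⟨_, (alpha_mul_beta h).symm⟩
    · exact Ideal.mem_span_singleton.mpr ⟨_, (alpha_mul_gamma h).symm⟩
  · rw [Ideal.span_le]
    intro x hx
    rw [Set.mem_singleton_iff] at hx
    rw [hx, alpha_eq z]
    exact Ideal.add_mem _ (Ideal.mul_mem_right _ _ (Ideal.subset_span (by simp)))
      (Ideal.mul_mem_right _ _ (Ideal.subset_span (by simp)))

lemma minpoly_zeta_map (p : ℕ) :
    Polynomial.map (Int.castRingHom (ZMod p)) (minpoly ℤ (zeta_spec 11 ℚ K).toInteger) =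
      cyclotomic 11 (ZMod p) := by
  rw [← map_cyclotomic_int, cyclotomic_eq_minpoly (zeta_spec 11 ℚ K) (by norm_num)]
  congr 1
  exact (RingOfIntegers.minpoly_coe _).symm

lemma sum_two_pow_zmod23 : ∑ x ∈ Finset.range 11, (2 : ZMod 23) ^ x = 0 := by decide

/-- Kummer-Dedekind: `(23, ζ - 2)` is a prime ideal above `23`. -/
lemma span_pair_mem_primesOver :
    span {((23 : ℕ) : 𝓞 K), (zeta_spec 11 ℚ K).toInteger - 2} ∈
      primesOver (span {((23 : ℕ) : ℤ)}) (𝓞 K) := by
  have : Fact (Nat.Prime 23) := ⟨by norm_num⟩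
  have : Fact (Nat.Prime 11) := ⟨by norm_num⟩
  set ζ := (zeta_spec 11 ℚ K).toInteger with hζdef
  have h₁ : ¬ 23 ∣ exponent ζ := by
    rw [exponent_eq_one_iff.mpr <| adjoin_singleton_eq_top (zeta_spec 11 ℚ K)]
    norm_num
  have hQ : (X - C (2 : ℤ)).map (Int.castRingHom (ZMod 23)) ∈ monicFactorsMod ζ 23 := by
    rw [Multiset.mem_toFinset, Polynomial.mem_normalizedFactors_iff
      (map_monic_ne_zero (minpoly.monic ζ.isIntegral))]
    have hmap : (X - C (2 : ℤ)).map (Int.castRingHom (ZMod 23)) = X - C (2 : ZMod 23) := by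
      rw [Polynomial.map_sub, Polynomial.map_X, Polynomial.map_C]
      rfl
    rw [hmap]
    refine ⟨irreducible_X_sub_C _, monic_X_sub_C _, ?_⟩
    rw [hζdef, minpoly_zeta_map K 23, dvd_iff_isRoot, IsRoot.def,
      cyclotomic_prime, eval_finsetSum]
    simp only [eval_pow, eval_X]
    exact sum_two_pow_zmod23
  have key := primesOverSpanEquivMonicFactorsMod_symm_apply_eq_span h₁ hQ
  have hmem := ((primesOverSpanEquivMonicFactorsMod h₁).symm ⟨_, hQ⟩).prop
  rw [key] at hmem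
  have hae : aeval ζ (X - C (2 : ℤ)) = ζ - 2 := by
    rw [map_sub, aeval_X, aeval_C]
    simp
  rw [hae] at hmem
  exact hmem

/-- A prime above `23` is principal. -/
lemma exists_P_twentythree (B : ℕ) :
    ∃ P ∈ primesOver (span {((23 : ℕ) : ℤ)}) (𝓞 K),
      B < 23 ^ P.inertiaDeg ℤ ∨ Submodule.IsPrincipal P := by
  refine ⟨_, span_pair_mem_primesOver K, Or.inr ?_⟩
  have h := span_pair_eq_span_alpha (zeta_spec 11 ℚ K).toInteger_isPrimitiveRoot
  have h23 : ((23 : ℕ) : 𝓞 K) = 23 := by norm_num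
  rw [h23, h]
  exact ⟨⟨_, rfl⟩⟩

lemma prime_le_59_cases (p : ℕ) (hp : p.Prime) (hle : p ≤ 59) :
    p = 2 ∨ p = 3 ∨ p = 5 ∨ p = 7 ∨ p = 11 ∨ p = 13 ∨ p = 17 ∨ p = 19 ∨ p = 23 ∨ p = 29 ∨
      p = 31 ∨ p = 37 ∨ p = 41 ∨ p = 43 ∨ p = 47 ∨ p = 53 ∨ p = 59 := by
  interval_cases p <;> first | omega | (exfalso; revert hp; norm_num)

/-- The ring of integers of the `11`-th cyclotomic field is a principal ideal domain. -/
theorem eleven_pid : IsPrincipalIdealRing (𝓞 K) := by
  have : IsGalois ℚ K := IsCyclotomicExtension.isGalois {11} ℚ K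
  apply RingOfIntegers.isPrincipalIdealRing_of_isPrincipal_of_lt_or_isPrincipal_of_mem_primesOver_of_mem_Icc
  intro p hp hprime
  have hB := minkowski_floor_le K
  have hp59 : p ≤ 59 := (Finset.mem_Icc.mp hp).2.trans hB
  rcases prime_le_59_cases p hprime hp59 with
    rfl | rfl | rfl | rfl | rfl | rfl | rfl | rfl | rfl | rfl | rfl | rfl | rfl | rfl | rfl |
    rfl | rfl
  · exact exists_P_of_order K _ hB 2 10 hprime (by norm_num)
      (ord10 _ (by decide) (by decide) (by decide)) (by norm_num)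
  · exact exists_P_of_order K _ hB 3 5 hprime (by norm_num)
      (ord5 _ (by decide) (by decide)) (by norm_num)
  · exact exists_P_of_order K _ hB 5 5 hprime (by norm_num)
      (ord5 _ (by decide) (by decide)) (by norm_num)
  · exact exists_P_of_order K _ hB 7 10 hprime (by norm_num)
      (ord10 _ (by decide) (by decide) (by decide)) (by norm_num)
  · exact exists_P_eleven K _
  · exact exists_P_of_order K _ hB 13 10 hprime (by norm_num)
      (ord10 _ (by decide) (by decide) (by decide)) (by norm_num)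
  · exact exists_P_of_order K _ hB 17 10 hprime (by norm_num)
      (ord10 _ (by decide) (by decide) (by decide)) (by norm_num)
  · exact exists_P_of_order K _ hB 19 10 hprime (by norm_num)
      (ord10 _ (by decide) (by decide) (by decide)) (by norm_num)
  · exact exists_P_twentythree K _
  · exact exists_P_of_order K _ hB 29 10 hprime (by norm_num)
      (ord10 _ (by decide) (by decide) (by decide)) (by norm_num)
  · exact exists_P_of_order K _ hB 31 5 hprime (by norm_num)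
      (ord5 _ (by decide) (by decide)) (by norm_num)
  · exact exists_P_of_order K _ hB 37 5 hprime (by norm_num)
      (ord5 _ (by decide) (by decide)) (by norm_num)
  · exact exists_P_of_order K _ hB 41 10 hprime (by norm_num)
      (ord10 _ (by decide) (by decide) (by decide)) (by norm_num)
  · exact exists_P_of_order K _ hB 43 2 hprime (by norm_num)
      (ord2 _ (by decide) (by decide)) (by norm_num)
  · exact exists_P_of_order K _ hB 47 5 hprime (by norm_num)
      (ord5 _ (by decide) (by decide)) (by norm_num)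
  · exact exists_P_of_order K _ hB 53 5 hprime (by norm_num)
      (ord5 _ (by decide) (by decide)) (by norm_num)
  · exact exists_P_of_order K _ hB 59 5 hprime (by norm_num)
      (ord5 _ (by decide) (by decide)) (by norm_num)

end Fermat.Agent.S11.helper71
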